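/-
GATE-H (S19) / node ADD, second seat (helper37): SECTIONS.

Abstract frame of `GH/Vocab.lean` (`R : RedData K F k Ft`, `H : LSpaceHyp R g c`).

* `riemann_inequality`  : `deg D + 1 - g ≤ l(D)` for EVERY divisor `D` (from `H.rrF` at large degree);
  this is the only Riemann–Roch input of node ADD (no threshold `c` is needed below).
* `ValueAt` calculus    : uniqueness, additivity, `K`-linearity, relation with `Place.ord`.
* `red_mem_riemannRochSpace_mapDomain` : `e ∈ L(D) ∩ Rw`, `red e ≠ 0` ⟹ `red e ∈ L(r_* D)`.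
* `ord_red_pos_of_zero`  : a zero on the disc without poles on the disc gives a zero of the reduction.
-/
import Mathlib
import Fermat.Agent.GH.Vocab
import Fermat.Agent.S24.PlaceBasic

set_option autoImplicit false

noncomputable section

open AlgebraicCurve

namespace Fermat.Agent.GH.AddSec

open Fermat.Agent.RRh45 Fermat.Agent.GJ.S37MinDiv Fermat.Agent.GJ.J1 Fermat.Agent.GJ.S37LSpace
  Fermat.Agent.GJ.S37ROfSurj Fermat.Agent.S24

variable {K F k Ft : Type*} [Field K] [Field F] [Algebra K F] [Field k] [Field Ft] [Algebra k Ft]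

/-! ### `ValueAt` calculus (no reduction datum) -/

section Value

variable (P : Place K F)

theorem val_lt_one_iff_ord_pos {e : F} (he : e ≠ 0) :
    P.toValuationSubring.valuation e < 1 ↔ 0 < P.ord e := by
  rw [PlaceB.ord_pos_iff P he]
  constructor
  · intro h
    have hmem : e ∈ P.toValuationSubring :=
      (P.toValuationSubring.valuation_le_one_iff e).mp h.le
    have hle := (PlaceB.adicValuation_le_one_iff P e).mpr hmem
    refine lt_of_le_of_ne hle fun h1 => ?_
    have hu : IsUnit (⟨e, hmem⟩ : P.toValuationSubring) :=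
      (P.adicValuation_coe_eq_one_iff ⟨e, hmem⟩).mp h1
    have := (P.toValuationSubring.valuation_eq_one_iff ⟨e, hmem⟩).mp hu
    exact absurd this h.ne
  · intro h
    have hmem : e ∈ P.toValuationSubring := (PlaceB.adicValuation_le_one_iff P e).mp h.le
    have hle := (P.toValuationSubring.valuation_le_one_iff e).mpr hmem
    refine lt_of_le_of_ne hle fun h1 => ?_
    have hu : IsUnit (⟨e, hmem⟩ : P.toValuationSubring) :=
      (P.toValuationSubring.valuation_eq_one_iff ⟨e, hmem⟩).mpr h1
    have := (P.adicValuation_coe_eq_one_iff ⟨e, hmem⟩).mpr hu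
    exact absurd this h.ne

theorem valueAt_zero_iff {e : F} : ValueAt P e 0 ↔ e = 0 ∨ 0 < P.ord e := by
  unfold ValueAt
  rw [map_zero, sub_zero]
  rcases eq_or_ne e 0 with rfl | he
  · simp
  · rw [val_lt_one_iff_ord_pos P he]
    exact ⟨Or.inr, fun h => h.resolve_left he⟩

theorem valueAt_iff {e : F} {a : K} : ValueAt P e a ↔ ValueAt P (e - algebraMap K F a) 0 := by
  unfold ValueAt
  rw [map_zero, sub_zero]

theorem ValueAt.add {e e' : F} {a a' : K} (h : ValueAt P e a) (h' : ValueAt P e' a') :
    ValueAt P (e + e') (a + a') := by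
  unfold ValueAt at *
  have : e + e' - algebraMap K F (a + a') = (e - algebraMap K F a) + (e' - algebraMap K F a') := by
    rw [map_add]; ring
  rw [this]
  exact lt_of_le_of_lt (Valuation.map_add _ _ _) (max_lt h h')

theorem valueAt_algebraMap (a : K) : ValueAt P (algebraMap K F a) a := by
  unfold ValueAt
  rw [sub_self, map_zero]
  exact zero_lt_one

theorem val_algebraMap_le_one (a : K) : P.toValuationSubring.valuation (algebraMap K F a) ≤ 1 :=
  (P.toValuationSubring.valuation_le_one_iff _).mpr (P.algebraMap_mem' a)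

theorem val_algebraMap_eq_one {a : K} (ha : a ≠ 0) :
    P.toValuationSubring.valuation (algebraMap K F a) = 1 := by
  refine le_antisymm (val_algebraMap_le_one P a) ?_
  have h1 := val_algebraMap_le_one P a⁻¹
  rw [map_inv₀, map_inv₀] at h1
  have h0 : P.toValuationSubring.valuation (algebraMap K F a) ≠ 0 := by
    rw [Valuation.ne_zero_iff]; simpa using ha
  exact (inv_le_one₀ (zero_lt_iff.mpr h0)).mp h1

theorem ValueAt.smul {e : F} {a : K} (b : K) (h : ValueAt P e a) :
    ValueAt P (algebraMap K F b * e) (b * a) := by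
  unfold ValueAt at *
  have : algebraMap K F b * e - algebraMap K F (b * a)
      = algebraMap K F b * (e - algebraMap K F a) := by
    rw [map_mul]; ring
  rw [this, map_mul]
  calc _ ≤ 1 * P.toValuationSubring.valuation (e - algebraMap K F a) :=
        mul_le_mul_left (val_algebraMap_le_one P b) _
    _ < 1 := by rw [one_mul]; exact h

theorem ValueAt.unique {e : F} {a a' : K} (h : ValueAt P e a) (h' : ValueAt P e a') : a = a' := by
  by_contra hne
  have hsub : a' - a ≠ 0 := sub_ne_zero.mpr (Ne.symm hne)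
  have h1 := val_algebraMap_eq_one P hsub
  unfold ValueAt at h h'
  have : algebraMap K F (a' - a) = (e - algebraMap K F a) - (e - algebraMap K F a') := by
    rw [map_sub]; ring
  rw [this] at h1
  have h2 := lt_of_le_of_lt (Valuation.map_sub _ _ _) (max_lt h h')
  rw [h1] at h2
  exact lt_irrefl _ h2

theorem ValueAt.mem {e : F} {a : K} (h : ValueAt P e a) : e ∈ P.toValuationSubring := by
  have h1 : e - algebraMap K F a ∈ P.toValuationSubring :=
    (P.toValuationSubring.valuation_le_one_iff _).mp (le_of_lt h)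
  have := P.toValuationSubring.add_mem _ _ h1 (P.algebraMap_mem' a)
  simpa using this

theorem ValueAt.mul {e e' : F} {a a' : K} (h : ValueAt P e a) (h' : ValueAt P e' a') :
    ValueAt P (e * e') (a * a') := by
  have hm := ValueAt.mem P h
  unfold ValueAt at *
  have : e * e' - algebraMap K F (a * a')
      = e * (e' - algebraMap K F a') + algebraMap K F a' * (e - algebraMap K F a) := by
    rw [map_mul]; ring
  rw [this]
  refine lt_of_le_of_lt (Valuation.map_add _ _ _) (max_lt ?_ ?_)
  · rw [map_mul]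
    calc _ ≤ 1 * P.toValuationSubring.valuation (e' - algebraMap K F a') :=
          mul_le_mul_left ((P.toValuationSubring.valuation_le_one_iff _).mpr hm) _
      _ < 1 := by rw [one_mul]; exact h'
  · rw [map_mul]
    calc _ ≤ 1 * P.toValuationSubring.valuation (e - algebraMap K F a) :=
          mul_le_mul_left (val_algebraMap_le_one P a') _
      _ < 1 := by rw [one_mul]; exact h

theorem ValueAt.sum {ι : Type*} (s : Finset ι) {e : ι → F} {a : ι → K}
    (h : ∀ i ∈ s, ValueAt P (e i) (a i)) : ValueAt P (∑ i ∈ s, e i) (∑ i ∈ s, a i) := by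
  classical
  induction s using Finset.induction_on with
  | empty =>
    simp only [Finset.sum_empty]
    simpa using valueAt_algebraMap P (0 : K)
  | insert i s hi ih =>
    rw [Finset.sum_insert hi, Finset.sum_insert hi]
    exact ValueAt.add P (h i (Finset.mem_insert_self i s))
      (ih fun j hj => h j (Finset.mem_insert_of_mem hj))

end Value


/-! ### Valuation rings: small lemmas -/

theorem val_lt_one_iff_inv_notMem {L : Type*} [Field L] (A : ValuationSubring L) {x : L}
    (hx : x ≠ 0) : A.valuation x < 1 ↔ x⁻¹ ∉ A := by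
  rw [← A.valuation_le_one_iff x⁻¹, map_inv₀, not_le]
  have h0 : 0 < A.valuation x := zero_lt_iff.mpr ((Valuation.ne_zero_iff _).mpr hx)
  rw [one_lt_inv₀ h0]

section Red

variable {R : RedData K F k Ft} {g c : ℤ}

/-- the valuation of `K` and the Gauss valuation agree on "`< 1`" for constants. -/
theorem val_algebraMap_lt_one_iff (a : K) :
    R.Rw.valuation (algebraMap K F a) < 1 ↔ R.A.valuation a < 1 := by
  rcases eq_or_ne a 0 with rfl | ha
  · simp
  · have ha' : algebraMap K F a ≠ 0 := by simpa using ha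
    rw [val_lt_one_iff_inv_notMem _ ha', val_lt_one_iff_inv_notMem _ ha, R.mem_A_iff, map_inv₀]

theorem mem_A_of_val_lt_one {a : K} (h : R.A.valuation a < 1) : a ∈ R.A :=
  (R.A.valuation_le_one_iff a).mp h.le

/-- the residue map of the base kills exactly the maximal ideal. -/
theorem res_eq_zero_iff (a : R.A) : R.res a = 0 ↔ R.A.valuation (a : K) < 1 := by
  rw [← val_algebraMap_lt_one_iff (R := R) (F := F),
    ← (algebraMap k Ft).injective.eq_iff, map_zero, ← R.red_algebraMap, R.red_eq_zero_iff,
    ValuationSubring.valuation_lt_one_iff]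

variable [FiniteResidues K F] [HasPrincipalDivisors K F] [Nonempty (Place K F)]
variable [FiniteResidues k Ft] [HasPrincipalDivisors k Ft] [Nonempty (Place k Ft)]
variable [Infinite k]

omit [FiniteResidues k Ft] [HasPrincipalDivisors k Ft] [Nonempty (Place k Ft)] [Infinite k] in
/-- **Riemann's inequality** for every divisor, from Riemann's theorem at large degree. -/
theorem riemann_inequality (H : LSpaceHyp R g c) (D : Divisor K F) :
    Divisor.degree D + 1 - g ≤ (Module.finrank K (riemannRochSpace D) : ℤ) := by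
  have P₀ : Place K F := Classical.arbitrary _
  set N : ℕ := (c - Divisor.degree D).toNat with hN
  have hle : D ≤ D + Finsupp.single P₀ (N : ℤ) :=
    le_add_of_nonneg_right (Finsupp.single_nonneg.mpr (by positivity))
  have hdeg : Divisor.degree (D + Finsupp.single P₀ (N : ℤ)) = Divisor.degree D + N := by
    rw [map_add, Divisor.degree_single, H.degF P₀]; simp
  have hc : c ≤ Divisor.degree (D + Finsupp.single P₀ (N : ℤ)) := by
    rw [hdeg]
    have := Int.self_le_toNat (c - Divisor.degree D)
    omega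
  have h1 := H.rrF _ hc
  have h2 := finrank_le_of_le hle
  rw [hdeg] at h1 h2
  omega

/-- the reduction of a Gauss-integral element of `L(D)` lies in `L(r_* D)`. -/
theorem red_mem_riemannRochSpace_mapDomain (H : LSpaceHyp R g c) {D : Divisor K F} {e : R.Rw}
    (he : (e : F) ∈ riemannRochSpace D) (hred : R.red e ≠ 0) :
    R.red e ∈ riemannRochSpace (Finsupp.mapDomain (rOf H) D) := by
  classical
  have he0 : (e : F) ≠ 0 := fun h => hred (by rw [show e = 0 from Subtype.ext h, map_zero])
  obtain ⟨De, hDe, -⟩ := HasPrincipalDivisors.exists_divisor (K := K) (e : F) he0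
  rw [mem_riemannRochSpace_iff]
  intro Q
  right
  rw [← mapDomain_rOf_principal H hred hDe Q]
  have hnn : 0 ≤ D + De := by
    rw [Finsupp.le_def]
    intro P
    have := (mem_riemannRochSpace_iff.mp he P).resolve_left he0
    rw [Finsupp.add_apply, hDe P]
    simp only [Finsupp.coe_zero, Pi.zero_apply]
    omega
  have h1 := Finsupp.le_def.mp (Finsupp.mapDomain_nonneg (f := rOf H) hnn) Q
  rw [Finsupp.mapDomain_add, Finsupp.add_apply] at h1
  simp only [Finsupp.coe_zero, Pi.zero_apply] at h1
  omega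

/-- a zero on the disc of `Q`, and no pole on that disc, give a zero of the reduction at `Q`. -/
theorem ord_red_pos_of_zero (H : LSpaceHyp R g c) {f : R.Rw} (hf : R.red f ≠ 0) {Q : Place k Ft}
    (hreg : ∀ P ∈ disc H Q, 0 ≤ P.ord (f : F)) {P₀ : Place K F} (hP₀ : P₀ ∈ disc H Q)
    (h0 : 0 < P₀.ord (f : F)) : 0 < Q.ord (R.red f) := by
  classical
  have hf0 : (f : F) ≠ 0 := fun h => hf (by rw [show f = 0 from Subtype.ext h, map_zero])
  obtain ⟨Df, hDf, -⟩ := HasPrincipalDivisors.exists_divisor (K := K) (f : F) hf0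
  rw [ord_red_eq_sum H hf hDf Q]
  have hmem : P₀ ∈ Df.support.filter (fun P => rOf H P = Q) := by
    rw [Finset.mem_filter, Finsupp.mem_support_iff, hDf P₀]
    exact ⟨by omega, hP₀⟩
  exact lt_of_lt_of_le h0
    (Finset.single_le_sum (f := fun P => P.ord (f : F))
      (fun P hP => hreg P (Finset.mem_filter.mp hP).2) hmem)

end Red


/-! ### Linear algebra: a complement of a line -/

theorem exists_compl_family {k V : Type*} [Field k] [AddCommGroup V] [Module k V]
    [Module.Finite k V] {v₀ : V} (hv₀ : v₀ ≠ 0) :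
    ∃ (d : ℕ) (c : Fin d → V), Module.finrank k V = 1 + d ∧
      ∀ (a : Fin d → k) (α : k), ∑ j, a j • c j = α • v₀ → a = 0 := by
  classical
  obtain ⟨C, hC⟩ := Submodule.exists_isCompl (Submodule.span k {v₀})
  have hdimC : Module.finrank k V = 1 + Module.finrank k C := by
    rw [← Submodule.finrank_add_eq_of_isCompl hC, finrank_span_singleton hv₀]
  let bC : Module.Basis (Fin (Module.finrank k C)) k C := Module.finBasis k C
  refine ⟨Module.finrank k C, fun j => (bC j : V), hdimC, fun a α h => ?_⟩
  have hw : ((∑ j, a j • bC j : C) : V) = α • v₀ := by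
    rw [← h]; push_cast; rfl
  have hwspan : ((∑ j, a j • bC j : C) : V) ∈ Submodule.span k {v₀} := by
    rw [hw]; exact Submodule.smul_mem _ _ (Submodule.mem_span_singleton_self v₀)
  have hw0 : ((∑ j, a j • bC j : C) : V) = 0 := by
    have := Submodule.mem_inf.mpr ⟨hwspan, (∑ j, a j • bC j : C).2⟩
    rwa [hC.inf_eq_bot, Submodule.mem_bot] at this
  have hw0' : (∑ j, a j • bC j : C) = 0 := Subtype.ext hw0
  exact funext (Fintype.linearIndependent_iff.mp bC.linearIndependent a hw0')

/-! ### The pole divisor and the constancy criterion -/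

section Sections

variable {R : RedData K F k Ft} {g c : ℤ}
variable [FiniteResidues K F] [HasPrincipalDivisors K F] [Nonempty (Place K F)]
variable [FiniteResidues k Ft] [HasPrincipalDivisors k Ft] [Nonempty (Place k Ft)]
variable [Infinite k]
variable {H : LSpaceHyp R g c} {n : ℕ}
variable {ι : Type*} [Fintype ι]

/-- The pole divisor of the sections: the centres of the chart points `pt i` plus the base
divisor of the kernel chart `𝔤`. -/
def poleDiv {Q : ι → Place k Ft} (pt : ∀ i, ChartPt H (Q i)) (𝔤 : Chart H n) : Divisor K F :=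
  (∑ i, Finsupp.single (pt i).P (1 : ℤ)) + 𝔤.D0

theorem poleDiv_nonneg {Q : ι → Place k Ft} (pt : ∀ i, ChartPt H (Q i)) (𝔤 : Chart H n) :
    0 ≤ poleDiv pt 𝔤 := by
  refine add_nonneg (Finset.sum_nonneg fun i _ => Finsupp.single_nonneg.mpr zero_le_one) ?_
  exact Finset.sum_nonneg fun i _ => Finsupp.single_nonneg.mpr zero_le_one

theorem degree_poleDiv {Q : ι → Place k Ft} (pt : ∀ i, ChartPt H (Q i)) (𝔤 : Chart H n) :
    Divisor.degree (poleDiv pt 𝔤) = Fintype.card ι + n := by
  rw [poleDiv, map_add, map_sum, Chart.D0, map_sum]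
  simp [Divisor.degree_single, H.degF]

/-- off the centres, the pole divisor vanishes on the discs of the points `pt i`. -/
theorem poleDiv_apply_of_ne {Q : ι → Place k Ft} (hQ : Function.Injective Q)
    (pt : ∀ i, ChartPt H (Q i)) (𝔤 : Chart H n) (hdisj : ∀ i j, Q i ≠ 𝔤.Q j) {i : ι}
    {P : Place K F} (hP : P ∈ disc H (Q i)) (hne : P ≠ (pt i).P) : poleDiv pt 𝔤 P = 0 := by
  classical
  rw [poleDiv, Chart.D0, Finsupp.add_apply, Finsupp.finsetSum_apply, Finsupp.finsetSum_apply]
  have h1 : ∑ j, (Finsupp.single (pt j).P (1 : ℤ)) P = 0 := by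
    refine Finset.sum_eq_zero fun j _ => ?_
    rw [Finsupp.single_apply, if_neg]
    intro hj
    have hji : j = i := hQ (by rw [← (pt j).hP, hj]; exact hP)
    subst hji
    exact hne hj.symm
  have h2 : ∑ j, (Finsupp.single (𝔤.pt j).P (1 : ℤ)) P = 0 := by
    refine Finset.sum_eq_zero fun j _ => ?_
    rw [Finsupp.single_apply, if_neg]
    intro hj
    refine hdisj i j ?_
    rw [← (𝔤.pt j).hP, hj]
    exact hP.symm
  rw [h1, h2, add_zero]

/-- at a centre the pole divisor is `1`. -/
theorem poleDiv_apply_centre {Q : ι → Place k Ft} (hQ : Function.Injective Q)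
    (pt : ∀ i, ChartPt H (Q i)) (𝔤 : Chart H n) (hdisj : ∀ i j, Q i ≠ 𝔤.Q j) (i : ι) :
    poleDiv pt 𝔤 (pt i).P = 1 := by
  classical
  rw [poleDiv, Chart.D0, Finsupp.add_apply, Finsupp.finsetSum_apply, Finsupp.finsetSum_apply]
  have h1 : ∑ j, (Finsupp.single (pt j).P (1 : ℤ)) (pt i).P = 1 := by
    rw [Finset.sum_eq_single i]
    · simp
    · intro j _ hji
      rw [Finsupp.single_apply, if_neg]
      intro hj
      exact hji (hQ (by rw [← (pt j).hP, hj]; exact (pt i).hP))
    · intro h; exact absurd (Finset.mem_univ i) h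
  have h2 : ∑ j, (Finsupp.single (𝔤.pt j).P (1 : ℤ)) (pt i).P = 0 := by
    refine Finset.sum_eq_zero fun j _ => ?_
    rw [Finsupp.single_apply, if_neg]
    intro hj
    refine hdisj i j ?_
    rw [← (𝔤.pt j).hP, hj]
    exact ((pt i).hP).symm
  rw [h1, h2, add_zero]

/-- the push-forward of the pole divisor. -/
theorem mapDomain_poleDiv {Q : ι → Place k Ft} (pt : ∀ i, ChartPt H (Q i)) (𝔤 : Chart H n) :
    Finsupp.mapDomain (rOf H) (poleDiv pt 𝔤)
      = (∑ i, Finsupp.single (Q i) (1 : ℤ)) + ∑ j, Finsupp.single (𝔤.Q j) (1 : ℤ) := by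
  rw [poleDiv, Chart.D0, Finsupp.mapDomain_add, Finsupp.mapDomain_finsetSum,
    Finsupp.mapDomain_finsetSum]
  congr 1
  · refine Finset.sum_congr rfl fun i _ => ?_
    rw [Finsupp.mapDomain_single]
    congr 1
    exact (pt i).hP
  · refine Finset.sum_congr rfl fun j _ => ?_
    rw [Finsupp.mapDomain_single]
    congr 1
    exact (𝔤.pt j).hP

/-- `t_i * e` has no pole on the `i`-th disc when `e ∈ L(poleDiv)`. -/
theorem mul_mem_toValuationSubring {Q : ι → Place k Ft} (hQ : Function.Injective Q)
    (pt : ∀ i, ChartPt H (Q i)) (𝔤 : Chart H n) (hdisj : ∀ i j, Q i ≠ 𝔤.Q j) {e : F}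
    (he : e ∈ riemannRochSpace (poleDiv pt 𝔤)) (i : ι) {P : Place K F} (hP : P ∈ disc H (Q i)) :
    (pt i).t * e ∈ P.toValuationSubring := by
  rcases eq_or_ne e 0 with rfl | he0
  · rw [mul_zero]; exact P.toValuationSubring.zero_mem
  have hord := (mem_riemannRochSpace_iff.mp he P).resolve_left he0
  by_cases hPi : P = (pt i).P
  · subst hPi
    rw [poleDiv_apply_centre hQ pt 𝔤 hdisj i] at hord
    rcases (valueAt_zero_iff _).mp (pt i).ht0 with ht | ht
    · rw [ht, zero_mul]; exact (pt i).P.toValuationSubring.zero_mem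
    · have ht0 : (pt i).t ≠ 0 := fun h => by rw [h, Place.ord_zero] at ht; exact lt_irrefl _ ht
      rw [← PlaceB.ord_nonneg_iff _ (mul_ne_zero ht0 he0), Place.ord_mul _ ht0 he0]
      omega
  · rw [poleDiv_apply_of_ne hQ pt 𝔤 hdisj hP hPi] at hord
    refine P.toValuationSubring.mul_mem _ _ ((pt i).ht.2 P hP) ?_
    rw [← PlaceB.ord_nonneg_iff _ he0]
    omega

theorem mul_mem_Odisc {Q : ι → Place k Ft} (hQ : Function.Injective Q)
    (pt : ∀ i, ChartPt H (Q i)) (𝔤 : Chart H n) (hdisj : ∀ i j, Q i ≠ 𝔤.Q j) {e : F}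
    (heR : e ∈ R.Rw) (he : e ∈ riemannRochSpace (poleDiv pt 𝔤)) (i : ι) :
    (pt i).t * e ∈ Odisc H (Q i) :=
  ⟨R.Rw.mul_mem _ _ (pt i).ht.1 heR, fun _ hP => mul_mem_toValuationSubring hQ pt 𝔤 hdisj he i hP⟩

/-- **constancy criterion**: a Gauss-integral `e ∈ L(poleDiv)` all of whose values
`(t_i e)(X_i)`, at ARBITRARY points `X_i` of the discs, lie in the maximal ideal of `R.A` reduces to
a constant. -/
theorem red_eq_algebraMap_of_values {Q : ι → Place k Ft} (hQ : Function.Injective Q)
    (pt : ∀ i, ChartPt H (Q i)) (𝔤 : Chart H n) (hdisj : ∀ i j, Q i ≠ 𝔤.Q j) {e : R.Rw}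
    (he : (e : F) ∈ riemannRochSpace (poleDiv pt 𝔤)) {X : ι → Place K F}
    (hX : ∀ i, X i ∈ disc H (Q i)) {b : ι → K}
    (hval : ∀ i, ValueAt (X i) ((pt i).t * (e : F)) (b i))
    (hb : ∀ i, R.A.valuation (b i) < 1) : ∃ a : k, R.red e = algebraMap k Ft a := by
  classical
  by_cases hred : R.red e = 0
  · exact ⟨0, by rw [hred, map_zero]⟩
  have he0 : (e : F) ≠ 0 := fun h => hred (by rw [show e = 0 from Subtype.ext h, map_zero])
  set G : Divisor k Ft := ∑ j, Finsupp.single (𝔤.Q j) (1 : ℤ) with hG
  have hG0 : 0 ≤ G := Finset.sum_nonneg fun j _ => Finsupp.single_nonneg.mpr zero_le_one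
  have hGQ : ∀ i, G (Q i) = 0 := by
    intro i
    rw [hG, Finsupp.finsetSum_apply]
    refine Finset.sum_eq_zero fun j _ => ?_
    rw [Finsupp.single_apply, if_neg]
    exact fun h => hdisj i j h.symm
  -- the reduction lies in `L(G)`
  have hmem : R.red e ∈ riemannRochSpace G := by
    have h1 := red_mem_riemannRochSpace_mapDomain H he hred
    rw [mapDomain_poleDiv] at h1
    rw [mem_riemannRochSpace_iff] at h1 ⊢
    intro Q'
    right
    by_cases hQ' : ∃ i, Q i = Q'
    · obtain ⟨i, rfl⟩ := hQ'
      rw [hGQ i, neg_zero]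
      -- the function `f = t_i e - b_i`
      have hbA : b i ∈ R.A := mem_A_of_val_lt_one (hb i)
      set tt : R.Rw := ⟨(pt i).t, (pt i).ht.1⟩ with htt
      set bb : R.Rw := ⟨algebraMap K F (b i), (R.mem_A_iff _).1 hbA⟩ with hbb
      have hredb : R.red bb = 0 := by
        have := R.red_algebraMap ⟨b i, hbA⟩
        rw [hbb, this, (res_eq_zero_iff (R := R) ⟨b i, hbA⟩).mpr (hb i), map_zero]
      have hredt : R.red tt ≠ 0 := by
        intro h
        have := (pt i).hred
        rw [← htt, h, Place.ord_zero] at this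
        exact zero_ne_one this
      have hredf : R.red (tt * e - bb) = R.red tt * R.red e := by
        rw [map_sub, map_mul, hredb, sub_zero]
      have hredf0 : R.red (tt * e - bb) ≠ 0 := by
        rw [hredf]; exact mul_ne_zero hredt hred
      have hf0 : ((tt * e - bb : R.Rw) : F) ≠ 0 := fun h =>
        hredf0 (by rw [show tt * e - bb = 0 from Subtype.ext h, map_zero])
      have hcoe : ((tt * e - bb : R.Rw) : F) = (pt i).t * (e : F) - algebraMap K F (b i) := rfl
      have hpos : 0 < (Q i).ord (R.red (tt * e - bb)) := by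
        refine ord_red_pos_of_zero H hredf0 (fun P hP => ?_) (hX i) ?_
        · rw [PlaceB.ord_nonneg_iff _ hf0, hcoe]
          exact sub_mem (mul_mem_toValuationSubring hQ pt 𝔤 hdisj he i hP) (P.algebraMap_mem' _)
        · rw [← val_lt_one_iff_ord_pos _ hf0, hcoe]
          exact hval i
      rw [hredf, Place.ord_mul _ hredt hred] at hpos
      have h1' := (pt i).hred
      rw [← htt] at h1'
      omega
    · have h2 := (h1 Q').resolve_left hred
      rw [Finsupp.add_apply, Finsupp.finsetSum_apply] at h2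
      have h3 : ∑ i, (Finsupp.single (Q i) (1 : ℤ)) Q' = 0 := by
        refine Finset.sum_eq_zero fun i _ => ?_
        rw [Finsupp.single_apply, if_neg]
        exact fun h => hQ' ⟨i, h⟩
      rw [h3, zero_add] at h2
      exact h2
  -- `L(G)` is the line of constants
  have hone : (1 : Ft) ∈ riemannRochSpace G := one_mem_riemannRochSpace hG0
  have hns := 𝔤.hns
  have hne : (⟨1, hone⟩ : riemannRochSpace G) ≠ 0 := fun h =>
    one_ne_zero (congrArg Subtype.val h)
  obtain ⟨a, ha⟩ := (finrank_eq_one_iff_of_nonzero' _ hne).mp hns ⟨R.red e, hmem⟩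
  refine ⟨a, ?_⟩
  have := congrArg Subtype.val ha
  simp only [Submodule.coe_smul] at this
  rw [← this, Algebra.smul_def, mul_one]


/-- values of disc-regular Gauss-integral functions exist and are integral (fact (I) of the disc
calculus, node V) — kept as a hypothesis-form `Prop` until node V lands. -/
def ValuesSpec (H : LSpaceHyp R g c) : Prop :=
  ∀ (Q : Place k Ft), ∀ e ∈ Odisc H Q, ∀ P ∈ disc H Q, ∃ a : K, a ∈ R.A ∧ ValueAt P e a

/-- an `R.A`-combination of Gauss-integral sections whose residues are all small reduces to a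
constant: the workhorse of the sections lemma. -/
theorem red_combo_eq_algebraMap {Q : ι → Place k Ft} (hQ : Function.Injective Q)
    (pt : ∀ i, ChartPt H (Q i)) (𝔤 : Chart H n) (hdisj : ∀ i j, Q i ≠ 𝔤.Q j) {d : ℕ}
    (x : Fin d → R.Rw) (hxL : ∀ j, (x j : F) ∈ riemannRochSpace (poleDiv pt 𝔤))
    {X : ι → Place K F} (hX : ∀ i, X i ∈ disc H (Q i))
    (N : ι → Fin d → K) (hNA : ∀ i j, N i j ∈ R.A)
    (hNval : ∀ i j, ValueAt (X i) ((pt i).t * (x j : F)) (N i j))
    (a : Fin d → R.A)
    (hsmall : ∀ i, ∑ j, R.res ⟨N i j, hNA i j⟩ * R.res (a j) = 0) :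
    ∃ α : k, ∑ j, R.res (a j) • R.red (x j) = algebraMap k Ft α := by
  classical
  let aw : Fin d → R.Rw := fun j => ⟨algebraMap K F (a j : K), (R.mem_A_iff _).1 (a j).2⟩
  have hecoe : ((∑ j, aw j * x j : R.Rw) : F) = ∑ j, algebraMap K F (a j : K) * (x j : F) := by
    push_cast; rfl
  have heL : ((∑ j, aw j * x j : R.Rw) : F) ∈ riemannRochSpace (poleDiv pt 𝔤) := by
    rw [hecoe]
    refine Submodule.sum_mem _ fun j _ => ?_
    have := (riemannRochSpace (poleDiv pt 𝔤)).smul_mem (a j : K) (hxL j)
    rwa [Algebra.smul_def] at this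
  have hevalue : ∀ i, ValueAt (X i) ((pt i).t * ((∑ j, aw j * x j : R.Rw) : F))
      (∑ j, (a j : K) * N i j) := by
    intro i
    have h1 : (pt i).t * ((∑ j, aw j * x j : R.Rw) : F)
        = ∑ j, algebraMap K F (a j : K) * ((pt i).t * (x j : F)) := by
      rw [hecoe, Finset.mul_sum]
      exact Finset.sum_congr rfl fun j _ => by ring
    rw [h1]
    exact ValueAt.sum _ _ fun j _ => ValueAt.smul _ _ (hNval i j)
  have hsm : ∀ i, R.A.valuation (∑ j, (a j : K) * N i j) < 1 := by
    intro i
    have h1 : (∑ j, (a j : K) * N i j)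
        = ((∑ j, a j * (⟨N i j, hNA i j⟩ : R.A) : R.A) : K) := by
      push_cast; rfl
    rw [h1, ← res_eq_zero_iff, map_sum, ← hsmall i]
    refine Finset.sum_congr rfl fun j _ => ?_
    rw [map_mul, mul_comm]
  obtain ⟨α, hα⟩ := red_eq_algebraMap_of_values hQ pt 𝔤 hdisj heL hX hevalue hsm
  refine ⟨α, ?_⟩
  rw [← hα, map_sum]
  refine Finset.sum_congr rfl fun j _ => ?_
  rw [map_mul, Algebra.smul_def]
  congr 1
  exact (R.red_algebraMap (a j)).symm

/-- the reduced value matrix of a family of lifts of a complement of the constants has trivial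
kernel, at ARBITRARY points of the discs. -/
theorem ker_eq_zero_of_lifts {Q : ι → Place k Ft} (hQ : Function.Injective Q)
    (pt : ∀ i, ChartPt H (Q i)) (𝔤 : Chart H n) (hdisj : ∀ i j, Q i ≠ 𝔤.Q j) {d : ℕ}
    (x : Fin d → R.Rw) (hxL : ∀ j, (x j : F) ∈ riemannRochSpace (poleDiv pt 𝔤))
    (hindep : ∀ (a : Fin d → k) (α : k),
      ∑ j, a j • R.red (x j) = algebraMap k Ft α → a = 0)
    {X : ι → Place K F} (hX : ∀ i, X i ∈ disc H (Q i))
    (N : ι → Fin d → K) (hNA : ∀ i j, N i j ∈ R.A)
    (hNval : ∀ i j, ValueAt (X i) ((pt i).t * (x j : F)) (N i j)) (abar : Fin d → k)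
    (habar : (Matrix.of fun i j => R.res ⟨N i j, hNA i j⟩).mulVec abar = 0) : abar = 0 := by
  classical
  have hlifta : ∀ j, ∃ a : R.A, R.res a = abar j := fun j => R.res_surjective _
  choose a ha using hlifta
  have hsmall : ∀ i, ∑ j, R.res ⟨N i j, hNA i j⟩ * R.res (a j) = 0 := by
    intro i
    have h2 := congrFun habar i
    simp only [Matrix.mulVec, dotProduct, Pi.zero_apply, Matrix.of_apply] at h2
    rw [← h2]
    refine Finset.sum_congr rfl fun j _ => ?_
    rw [ha j]
  obtain ⟨α, hα⟩ := red_combo_eq_algebraMap hQ pt 𝔤 hdisj x hxL hX N hNA hNval a hsmall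
  refine hindep abar α ?_
  rw [← hα]
  exact Finset.sum_congr rfl fun j _ => by rw [ha j]

/-- **SECTIONS LEMMA.**  Chart points `pt i` over pairwise distinct special places `Q i`, a kernel
chart `𝔤` with `n = g` points off them.  Then there are `#ι` Gauss-integral sections `e j` of
`L(Σ P_i + 𝔤.D0)` such that for ARBITRARY points `X i` of the discs the matrix of values
`N i j = (t_i e_j)(X_i)` is integral with unit determinant. -/
theorem exists_sections [DecidableEq ι] (hn : (n : ℤ) = g) (hI : ValuesSpec H)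
    {Q : ι → Place k Ft} (hQ : Function.Injective Q)
    (pt : ∀ i, ChartPt H (Q i)) (𝔤 : Chart H n) (hdisj : ∀ i j, Q i ≠ 𝔤.Q j) :
    ∃ e : ι → F, (∀ j, e j ∈ R.Rw) ∧ (∀ j, e j ∈ riemannRochSpace (poleDiv pt 𝔤)) ∧
      ∀ X : ι → Place K F, (∀ i, X i ∈ disc H (Q i)) → ∀ N : Matrix ι ι K,
        (∀ i j, ValueAt (X i) ((pt i).t * e j) (N i j)) →
          (∀ i j, N i j ∈ R.A) ∧ R.A.valuation N.det = 1 := by
  classical
  have h𝔄 : 0 ≤ poleDiv pt 𝔤 := poleDiv_nonneg pt 𝔤
  have hfin : Module.Finite k (redSpace R (poleDiv pt 𝔤)) := finite_redSpace H h𝔄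
  -- dimension of the reduced space
  have hdimW : (Fintype.card ι : ℤ) + 1 ≤ Module.finrank k (redSpace R (poleDiv pt 𝔤)) := by
    have h1 := riemann_inequality H (poleDiv pt 𝔤)
    rw [degree_poleDiv, ← H.orth _ h𝔄] at h1
    omega
  -- a complement of the line of constants
  have hone0 : (⟨1, one_mem_redSpace R h𝔄⟩ : redSpace R (poleDiv pt 𝔤)) ≠ 0 := fun h =>
    one_ne_zero (congrArg Subtype.val h)
  obtain ⟨d, cC, hdim, hindep⟩ := exists_compl_family (k := k) hone0
  -- lifts of the complement vectors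
  have hlift : ∀ j : Fin d, ∃ x : R.Rw, (x : F) ∈ riemannRochSpace (poleDiv pt 𝔤) ∧
      R.red x = ((cC j : redSpace R (poleDiv pt 𝔤)) : Ft) := fun j => (cC j).2
  choose x hxL hxred using hlift
  have hindep' : ∀ (a : Fin d → k) (α : k),
      ∑ j, a j • R.red (x j) = algebraMap k Ft α → a = 0 := by
    intro a α h
    refine hindep a α (Subtype.ext ?_)
    have h3 : ((∑ j, a j • cC j : redSpace R (poleDiv pt 𝔤)) : Ft) = ∑ j, a j • R.red (x j) := by
      push_cast
      exact Finset.sum_congr rfl fun j _ => by rw [hxred j]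
    rw [h3, h, Submodule.coe_smul, Algebra.smul_def, mul_one]
  -- values at arbitrary points of the discs
  have hvalX : ∀ X : ι → Place K F, (∀ i, X i ∈ disc H (Q i)) → ∀ i j,
      ∃ a : K, a ∈ R.A ∧ ValueAt (X i) ((pt i).t * (x j : F)) a := fun X hX i j =>
    hI (Q i) _ (mul_mem_Odisc hQ pt 𝔤 hdisj (x j).2 (hxL j) i) _ (hX i)
  -- `d = #ι`, from the centres
  have hdeq : d = Fintype.card ι := by
    have hcen : ∀ i, (pt i).P ∈ disc H (Q i) := fun i => (pt i).hP
    choose N hNA hNval using hvalX (fun i => (pt i).P) hcen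
    have hinj : Function.Injective
        (Matrix.of fun i j => R.res ⟨N i j, hNA i j⟩ : Matrix ι (Fin d) k).mulVecLin := by
      rw [← LinearMap.ker_eq_bot, LinearMap.ker_eq_bot']
      intro abar habar
      exact ker_eq_zero_of_lifts hQ pt 𝔤 hdisj x hxL hindep' hcen N hNA hNval abar
        (by simpa using habar)
    have hdle : d ≤ Fintype.card ι := by
      have := LinearMap.finrank_le_finrank_of_injective hinj
      simpa using this
    have : (Fintype.card ι : ℤ) + 1 ≤ 1 + (d : ℤ) := by
      have := hdimW; rw [hdim] at this; exact_mod_cast this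
    omega
  let ε : Fin d ≃ ι := Fintype.equivOfCardEq (by rw [Fintype.card_fin, hdeq])
  refine ⟨fun j => (x (ε.symm j) : F), fun j => (x _).2, fun j => hxL _, fun X hX N hN => ?_⟩
  -- integrality of the given values
  have hNA : ∀ i j, N i j ∈ R.A := by
    intro i j
    obtain ⟨a, haA, hav⟩ := hvalX X hX i (ε.symm j)
    rw [ValueAt.unique _ (hN i j) hav]
    exact haA
  refine ⟨hNA, ?_⟩
  let NA' : Matrix ι ι R.A := fun i j => ⟨N i j, hNA i j⟩
  have hdetK : N.det = ((NA'.det : R.A) : K) := by
    have := RingHom.map_det R.A.subtype NA'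
    rw [show (R.A.subtype NA'.det : K) = ((NA'.det : R.A) : K) from rfl] at this
    rw [this]
    rfl
  -- the kernel of the reduced matrix is trivial
  have hinj' : Function.Injective (NA'.map R.res).mulVec := by
    have hker : ∀ u : ι → k, (NA'.map R.res).mulVec u = 0 → u = 0 := by
      intro u hu
      have h0 := ker_eq_zero_of_lifts hQ pt 𝔤 hdisj x hxL hindep' hX
        (fun i j => N i (ε j)) (fun i j => hNA i (ε j))
        (fun i j => by simpa using hN i (ε j)) (u ∘ ε) ?_
      · funext j
        have := congrFun h0 (ε.symm j)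
        simpa using this
      · ext i
        have h2 := congrFun hu i
        simp only [Matrix.mulVec, dotProduct, Pi.zero_apply, Matrix.map_apply] at h2
        simp only [Matrix.mulVec, dotProduct, Pi.zero_apply, Matrix.of_apply,
          Function.comp_apply]
        rw [← h2]
        exact Equiv.sum_comp ε fun j => R.res (NA' i j) * u j
    intro v v' hvv
    have : v - v' = 0 := hker _ (by rw [Matrix.mulVec_sub, hvv, sub_self])
    exact sub_eq_zero.mp this
  have hunit : IsUnit (NA'.map R.res).det :=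
    (Matrix.isUnit_iff_isUnit_det _).mp (Matrix.mulVec_injective_iff_isUnit.mp hinj')
  have hres : R.res NA'.det ≠ 0 := by
    have := RingHom.map_det R.res NA'
    rw [this]
    exact hunit.ne_zero
  have hle : R.A.valuation ((NA'.det : R.A) : K) ≤ 1 :=
    (R.A.valuation_le_one_iff _).mpr NA'.det.2
  rw [hdetK]
  exact le_antisymm hle (not_lt.mp fun h => hres ((res_eq_zero_iff _).mpr h))

end Sections

end Fermat.Agent.GH.AddSec
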