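/-
GATE-H (S19) / node ADD, the Pic0 line (helper33).

The two determinant steps of the addition produce two principal divisors
  `D1 = (Σ[Pa i] - D0^𝔞) + (Σ[Pb i] - D0^𝔟) + (Σ[G1 j] - D0^𝔡)`   (step 1),
  `D2 = (Σ[G1 j] - D0^𝔡) + (Σ[E k] - D0^𝔠)`                        (step 2).
Hence `[Σ E - D0^𝔠] = [Σ Pa - D0^𝔞] + [Σ Pb - D0^𝔟]` in `Pic0`, i.e. the coordinates of `E` are
coordinates of the sum in the chart `𝔠`.  Stated for arbitrary principal `D1 D2` with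
`D1 - D2 = A + B - C`, so that any spelling of the step output plugs in by `abel`/`simp`.
-/
import Mathlib
import Fermat.Agent.GH.Vocab

set_option autoImplicit false
set_option linter.unusedSectionVars false

noncomputable section

open AlgebraicCurve

namespace Fermat.Agent.GH.Add.PicLine

open Fermat.Agent.RRh45 Fermat.Agent.GJ.S37MinDiv Fermat.Agent.GJ.J1 Fermat.Agent.GJ.S37LSpace
  Fermat.Agent.GJ.S37ROfSurj Fermat.Agent.GH

variable {K F k Ft : Type*} [Field K] [Field F] [Algebra K F] [Field k] [Field Ft] [Algebra k Ft]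
variable {R : RedData K F k Ft} {g c : ℤ}
variable [FiniteResidues K F] [HasPrincipalDivisors K F] [Nonempty (Place K F)]
variable [FiniteResidues k Ft] [HasPrincipalDivisors k Ft] [Nonempty (Place k Ft)]
variable [Infinite k]

variable {H : LSpaceHyp R g c} {n : ℕ}

/-- the degree of a sum of `n` points is `n`. -/
theorem degree_sum_single_one (H : LSpaceHyp R g c) {ι : Type*} [Fintype ι]
    (P : ι → Place K F) :
    Divisor.degree (∑ i, Finsupp.single (P i) (1 : ℤ)) = Fintype.card ι := by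
  rw [map_sum]
  have : ∀ i ∈ Finset.univ, Divisor.degree (Finsupp.single (P i) (1 : ℤ)) = 1 := fun i _ => by
    rw [Divisor.degree_single, H.degF (P i)]; norm_num
  rw [Finset.sum_congr rfl this]
  simp

/-- `Σ [Pτ i] - D0` has degree zero. -/
theorem sum_sub_D0_mem_degZero (𝔠 : Chart H n) (Pτ : Fin n → Place K F) :
    (∑ i, Finsupp.single (Pτ i) (1 : ℤ)) - 𝔠.D0 ∈ Divisor.degZero (K := K) (F := F) := by
  rw [Divisor.mem_degZero, map_sub, Chart.D0, degree_sum_single_one H, degree_sum_single_one H,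
    sub_self]

/-- the class `[Σ Pτ i - D0]` of a family of points. -/
def chartClass (𝔠 : Chart H n) (Pτ : Fin n → Place K F) : Pic0 K F :=
  Pic0.mk ⟨_, sum_sub_D0_mem_degZero 𝔠 Pτ⟩

/-- `IsCoord` through `chartClass`. -/
theorem isCoord_chartClass (𝔠 : Chart H n) (Pτ : Fin n → Place K F) (τ : Fin n → K)
    (hP : ∀ i, Pτ i ∈ disc H (𝔠.Q i)) (hV : ∀ i, ValueAt (Pτ i) (𝔠.pt i).t (τ i)) :
    IsCoord 𝔠 (chartClass 𝔠 Pτ) τ :=
  ⟨Pτ, hP, hV, sum_sub_D0_mem_degZero 𝔠 Pτ, rfl⟩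

/-- every `IsCoord` is of the form `chartClass`. -/
theorem IsCoord.exists_chartClass {𝔠 : Chart H n} {ξ : Pic0 K F} {τ : Fin n → K}
    (h : IsCoord 𝔠 ξ τ) :
    ∃ Pτ : Fin n → Place K F, (∀ i, Pτ i ∈ disc H (𝔠.Q i)) ∧
      (∀ i, ValueAt (Pτ i) (𝔠.pt i).t (τ i)) ∧ ξ = chartClass 𝔠 Pτ := by
  obtain ⟨Pτ, hP, hV, hdeg, hξ⟩ := h
  exact ⟨Pτ, hP, hV, hξ.symm⟩

/-- equality in `Pic0` from a principal difference. -/
theorem pic0_mk_eq_of_principal {D D' : Divisor.degZero (K := K) (F := F)}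
    (h : Divisor.IsPrincipal ((D' : Divisor K F) - (D : Divisor K F))) :
    Pic0.mk D = Pic0.mk D' := by
  unfold Pic0.mk
  rw [QuotientAddGroup.eq, AddSubgroup.mem_addSubgroupOf]
  have : ((-D + D' : Divisor.degZero (K := K) (F := F)) : Divisor K F)
      = (D' : Divisor K F) - (D : Divisor K F) := by
    push_cast; abel
  rw [this]
  exact h

/-- **the Pic0 line of ADD**, flexible form: two principal divisors whose difference is
`A + B - C` with `A = Σ[Pa] - D0^𝔞`, `B = Σ[Pb] - D0^𝔟`, `C = Σ[E] - D0^𝔠`. -/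
theorem chartClass_add_eq {𝔞 𝔟 𝔠 : Chart H n} (Pa Pb E : Fin n → Place K F)
    {D1 D2 : Divisor K F} (h1 : Divisor.IsPrincipal D1) (h2 : Divisor.IsPrincipal D2)
    (hD : D1 - D2 = ((∑ i, Finsupp.single (Pa i) (1 : ℤ)) - 𝔞.D0)
      + ((∑ i, Finsupp.single (Pb i) (1 : ℤ)) - 𝔟.D0)
      - ((∑ i, Finsupp.single (E i) (1 : ℤ)) - 𝔠.D0)) :
    chartClass 𝔞 Pa + chartClass 𝔟 Pb = chartClass 𝔠 E := by
  unfold chartClass
  rw [← Pic0.mk_add]
  refine (pic0_mk_eq_of_principal ?_).symm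
  have h3 : Divisor.IsPrincipal (D1 - D2) :=
    (Divisor.principal (K := K) (F := F)).sub_mem h1 h2
  rw [hD] at h3
  convert h3 using 1
  rfl

/-- **the Pic0 line of ADD**: the output `E` of the second step carries the coordinates of the
sum in the chart `𝔠`. -/
theorem isCoord_add_of_principal {𝔞 𝔟 𝔡 𝔠 : Chart H n} (Pa Pb G1 E : Fin n → Place K F)
    (ε : Fin n → K) (hE : ∀ i, E i ∈ disc H (𝔠.Q i)) (hε : ∀ i, ValueAt (E i) (𝔠.pt i).t (ε i))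
    (h1 : Divisor.IsPrincipal
      ((((∑ i, Finsupp.single (Pa i) (1 : ℤ)) - 𝔞.D0)
        + ((∑ i, Finsupp.single (Pb i) (1 : ℤ)) - 𝔟.D0))
        + ((∑ i, Finsupp.single (G1 i) (1 : ℤ)) - 𝔡.D0)))
    (h2 : Divisor.IsPrincipal
      (((∑ i, Finsupp.single (G1 i) (1 : ℤ)) - 𝔡.D0)
        + ((∑ i, Finsupp.single (E i) (1 : ℤ)) - 𝔠.D0))) :
    IsCoord 𝔠 (chartClass 𝔞 Pa + chartClass 𝔟 Pb) ε := by
  rw [chartClass_add_eq (𝔞 := 𝔞) (𝔟 := 𝔟) (𝔠 := 𝔠) Pa Pb E h1 h2 (by abel)]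
  exact isCoord_chartClass 𝔠 E ε hE hε

/-- the same with the classes given through `IsCoord` witnesses. -/
theorem isCoord_add_of_principal' {𝔞 𝔟 𝔡 𝔠 : Chart H n} (Pa Pb G1 E : Fin n → Place K F)
    (ε : Fin n → K) {ξ η : Pic0 K F} (hξ : ξ = chartClass 𝔞 Pa) (hη : η = chartClass 𝔟 Pb)
    (hE : ∀ i, E i ∈ disc H (𝔠.Q i)) (hε : ∀ i, ValueAt (E i) (𝔠.pt i).t (ε i))
    (h1 : Divisor.IsPrincipal
      ((((∑ i, Finsupp.single (Pa i) (1 : ℤ)) - 𝔞.D0)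
        + ((∑ i, Finsupp.single (Pb i) (1 : ℤ)) - 𝔟.D0))
        + ((∑ i, Finsupp.single (G1 i) (1 : ℤ)) - 𝔡.D0)))
    (h2 : Divisor.IsPrincipal
      (((∑ i, Finsupp.single (G1 i) (1 : ℤ)) - 𝔡.D0)
        + ((∑ i, Finsupp.single (E i) (1 : ℤ)) - 𝔠.D0))) :
    IsCoord 𝔠 (ξ + η) ε := by
  rw [hξ, hη]
  exact isCoord_add_of_principal Pa Pb G1 E ε hE hε h1 h2

/-- splitting a sum over `Fin n ⊕ Fin n` of point differences (the index type of step 1). -/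
theorem sum_sumType_single_sub (Pa Pb Pa0 Pb0 : Fin n → Place K F) :
    (∑ i : Fin n ⊕ Fin n, (Finsupp.single (Sum.elim Pa Pb i) (1 : ℤ)
        - Finsupp.single (Sum.elim Pa0 Pb0 i) (1 : ℤ)) : Divisor K F)
      = ((∑ i, Finsupp.single (Pa i) (1 : ℤ)) - ∑ i, Finsupp.single (Pa0 i) (1 : ℤ))
        + ((∑ i, Finsupp.single (Pb i) (1 : ℤ)) - ∑ i, Finsupp.single (Pb0 i) (1 : ℤ)) := by
  rw [Fintype.sum_sum_type]
  simp only [Sum.elim_inl, Sum.elim_inr, Finset.sum_sub_distrib]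

/-- a divisor given pointwise by the orders of a nonzero function is principal. -/
theorem isPrincipal_of_ord {D : Divisor K F} {h : F} (hh : h ≠ 0)
    (hD : ∀ P : Place K F, D P = P.ord h) : Divisor.IsPrincipal D :=
  ⟨h, hh, hD⟩

/-- **the Pic0 line of ADD in the output spelling of `GH/Add/DivBook.divBook`**: step 1 with index
type `Fin n ⊕ Fin n` (moved points `Pin`, centres `cin`), step 2 with index type `Fin n`. -/
theorem chartClass_add_eq_of_ord {𝔞 𝔟 𝔡 𝔠 : Chart H n} (Pin cin : Fin n ⊕ Fin n → Place K F)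
    (G1 E : Fin n → Place K F) {h h' : F} (hh : h ≠ 0) (hh' : h' ≠ 0)
    (hcl : ∀ i, cin (Sum.inl i) = (𝔞.pt i).P) (hcr : ∀ i, cin (Sum.inr i) = (𝔟.pt i).P)
    (h1 : ∀ P : Place K F,
      ((∑ i, Finsupp.single (Pin i) (1 : ℤ) - ∑ i, Finsupp.single (cin i) (1 : ℤ))
        + (∑ j, Finsupp.single (G1 j) (1 : ℤ) - 𝔡.D0)) P = P.ord h)
    (h2 : ∀ P : Place K F,
      ((∑ i, Finsupp.single (G1 i) (1 : ℤ) - ∑ i, Finsupp.single (𝔡.pt i).P (1 : ℤ))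
        + (∑ j, Finsupp.single (E j) (1 : ℤ) - 𝔠.D0)) P = P.ord h') :
    chartClass 𝔞 (fun i => Pin (Sum.inl i)) + chartClass 𝔟 (fun i => Pin (Sum.inr i))
      = chartClass 𝔠 E := by
  refine chartClass_add_eq (𝔞 := 𝔞) (𝔟 := 𝔟) (𝔠 := 𝔠) _ _ E (isPrincipal_of_ord hh h1)
    (isPrincipal_of_ord hh' h2) ?_
  rw [Fintype.sum_sum_type, Fintype.sum_sum_type]
  simp only [hcl, hcr, Chart.D0]
  abel

/-- the same as an `IsCoord` statement for given classes `ξ`, `η`. -/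
theorem isCoord_add_of_ord {𝔞 𝔟 𝔡 𝔠 : Chart H n} (Pin cin : Fin n ⊕ Fin n → Place K F)
    (G1 E : Fin n → Place K F) (ε : Fin n → K) {ξ η : Pic0 K F} {h h' : F} (hh : h ≠ 0)
    (hh' : h' ≠ 0)
    (hξ : ξ = chartClass 𝔞 (fun i => Pin (Sum.inl i)))
    (hη : η = chartClass 𝔟 (fun i => Pin (Sum.inr i)))
    (hE : ∀ i, E i ∈ disc H (𝔠.Q i)) (hε : ∀ i, ValueAt (E i) (𝔠.pt i).t (ε i))
    (hcl : ∀ i, cin (Sum.inl i) = (𝔞.pt i).P) (hcr : ∀ i, cin (Sum.inr i) = (𝔟.pt i).P)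
    (h1 : ∀ P : Place K F,
      ((∑ i, Finsupp.single (Pin i) (1 : ℤ) - ∑ i, Finsupp.single (cin i) (1 : ℤ))
        + (∑ j, Finsupp.single (G1 j) (1 : ℤ) - 𝔡.D0)) P = P.ord h)
    (h2 : ∀ P : Place K F,
      ((∑ i, Finsupp.single (G1 i) (1 : ℤ) - ∑ i, Finsupp.single (𝔡.pt i).P (1 : ℤ))
        + (∑ j, Finsupp.single (E j) (1 : ℤ) - 𝔠.D0)) P = P.ord h') :
    IsCoord 𝔠 (ξ + η) ε := by
  rw [hξ, hη, chartClass_add_eq_of_ord (𝔞 := 𝔞) (𝔟 := 𝔟) (𝔡 := 𝔡) (𝔠 := 𝔠) Pin cin G1 E hh hh'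
    hcl hcr h1 h2]
  exact isCoord_chartClass 𝔠 E ε hE hε

end Fermat.Agent.GH.Add.PicLine
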