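/-
GATE-H (S19) / node ADD, the Pic0 line in the `IsPrincipal` spelling of the STEP lemma
(helper33; complements `GH/Add/PicLine.lean`).

STEP (helper92, `GH/Add/Step.lean`) concludes, for a general finite index type `ι`,
  `Divisor.IsPrincipal ((∑ i, [Pin i] - ∑ i, [(pin i).P]) + (∑ j, [Pout j] - 𝔬.D0))`.
Step 1 uses `ι = Fin n ⊕ Fin n` (`Pin = Sum.elim Pa Pb`, centres of `𝔞` and `𝔟`), step 2 uses
`ι = Fin n` (`Pin = G1`, centres of `𝔡`).  `isCoord_add_of_step` takes exactly these two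
statements and returns `IsCoord 𝔠 (ξ + η) ε`.
-/
import Mathlib
import Fermat.Agent.GH.Add.PicLine

set_option autoImplicit false
set_option linter.unusedSectionVars false

noncomputable section

open AlgebraicCurve

namespace Fermat.Agent.GH.Add.PicLine

open Fermat.Agent.RRh45 Fermat.Agent.GJ.S37MinDiv Fermat.Agent.GJ.J1 Fermat.Agent.GJ.S37LSpace
  Fermat.Agent.GJ.S37ROfSurj Fermat.Agent.GH

variable {K F k Ft : Type*} [Field K] [Field F] [Algebra K F] [Field k] [Field Ft] [Algebra k Ft]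
variable {R : RedData K F k Ft} {g c : ℤ}
variable [FiniteResidues K F] [HasPrincipalDivisors K F] [Nonempty (Place K F)]
variable [FiniteResidues k Ft] [HasPrincipalDivisors k Ft] [Nonempty (Place k Ft)]
variable [Infinite k]

variable {H : LSpaceHyp R g c} {n : ℕ}

/-- the Pic0 line, `IsPrincipal` spelling, general moved points `Pin` and centres `cin` on
`Fin n ⊕ Fin n`. -/
theorem chartClass_add_eq_of_step {𝔞 𝔟 𝔡 𝔠 : Chart H n} (Pin cin : Fin n ⊕ Fin n → Place K F)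
    (G1 E : Fin n → Place K F)
    (hcl : ∀ i, cin (Sum.inl i) = (𝔞.pt i).P) (hcr : ∀ i, cin (Sum.inr i) = (𝔟.pt i).P)
    (h1 : Divisor.IsPrincipal
      ((∑ i, Finsupp.single (Pin i) (1 : ℤ) - ∑ i, Finsupp.single (cin i) (1 : ℤ))
        + (∑ j, Finsupp.single (G1 j) (1 : ℤ) - 𝔡.D0)))
    (h2 : Divisor.IsPrincipal
      ((∑ i, Finsupp.single (G1 i) (1 : ℤ) - ∑ i, Finsupp.single (𝔡.pt i).P (1 : ℤ))
        + (∑ j, Finsupp.single (E j) (1 : ℤ) - 𝔠.D0))) :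
    chartClass 𝔞 (fun i => Pin (Sum.inl i)) + chartClass 𝔟 (fun i => Pin (Sum.inr i))
      = chartClass 𝔠 E := by
  refine chartClass_add_eq (𝔞 := 𝔞) (𝔟 := 𝔟) (𝔠 := 𝔠) _ _ E h1 h2 ?_
  rw [Fintype.sum_sum_type, Fintype.sum_sum_type]
  simp only [hcl, hcr, Chart.D0]
  abel

/-- **the Pic0 line of ADD from the two STEP outputs** (`IsPrincipal` spelling). -/
theorem isCoord_add_of_step {𝔞 𝔟 𝔡 𝔠 : Chart H n} (Pin cin : Fin n ⊕ Fin n → Place K F)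
    (G1 E : Fin n → Place K F) (ε : Fin n → K) {ξ η : Pic0 K F}
    (hξ : ξ = chartClass 𝔞 (fun i => Pin (Sum.inl i)))
    (hη : η = chartClass 𝔟 (fun i => Pin (Sum.inr i)))
    (hE : ∀ i, E i ∈ disc H (𝔠.Q i)) (hε : ∀ i, ValueAt (E i) (𝔠.pt i).t (ε i))
    (hcl : ∀ i, cin (Sum.inl i) = (𝔞.pt i).P) (hcr : ∀ i, cin (Sum.inr i) = (𝔟.pt i).P)
    (h1 : Divisor.IsPrincipal
      ((∑ i, Finsupp.single (Pin i) (1 : ℤ) - ∑ i, Finsupp.single (cin i) (1 : ℤ))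
        + (∑ j, Finsupp.single (G1 j) (1 : ℤ) - 𝔡.D0)))
    (h2 : Divisor.IsPrincipal
      ((∑ i, Finsupp.single (G1 i) (1 : ℤ) - ∑ i, Finsupp.single (𝔡.pt i).P (1 : ℤ))
        + (∑ j, Finsupp.single (E j) (1 : ℤ) - 𝔠.D0))) :
    IsCoord 𝔠 (ξ + η) ε := by
  rw [hξ, hη, chartClass_add_eq_of_step (𝔞 := 𝔞) (𝔟 := 𝔟) (𝔡 := 𝔡) (𝔠 := 𝔠) Pin cin G1 E
    hcl hcr h1 h2]
  exact isCoord_chartClass 𝔠 E ε hE hε

/-- the same with `Pin = Sum.elim Pa Pb`. -/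
theorem isCoord_add_of_step_elim {𝔞 𝔟 𝔡 𝔠 : Chart H n} (Pa Pb : Fin n → Place K F)
    (cin : Fin n ⊕ Fin n → Place K F)
    (G1 E : Fin n → Place K F) (ε : Fin n → K) {ξ η : Pic0 K F}
    (hξ : ξ = chartClass 𝔞 Pa) (hη : η = chartClass 𝔟 Pb)
    (hE : ∀ i, E i ∈ disc H (𝔠.Q i)) (hε : ∀ i, ValueAt (E i) (𝔠.pt i).t (ε i))
    (hcl : ∀ i, cin (Sum.inl i) = (𝔞.pt i).P) (hcr : ∀ i, cin (Sum.inr i) = (𝔟.pt i).P)
    (h1 : Divisor.IsPrincipal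
      ((∑ i, Finsupp.single (Sum.elim Pa Pb i) (1 : ℤ) - ∑ i, Finsupp.single (cin i) (1 : ℤ))
        + (∑ j, Finsupp.single (G1 j) (1 : ℤ) - 𝔡.D0)))
    (h2 : Divisor.IsPrincipal
      ((∑ i, Finsupp.single (G1 i) (1 : ℤ) - ∑ i, Finsupp.single (𝔡.pt i).P (1 : ℤ))
        + (∑ j, Finsupp.single (E j) (1 : ℤ) - 𝔠.D0))) :
    IsCoord 𝔠 (ξ + η) ε :=
  isCoord_add_of_step (𝔞 := 𝔞) (𝔟 := 𝔟) (𝔡 := 𝔡) (𝔠 := 𝔠) (Sum.elim Pa Pb) cin G1 E ε hξ hη hE hε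
    hcl hcr h1 h2

/-- packaging of the step-1 data: chart points of `𝔞` and `𝔟` over `Fin n ⊕ Fin n`. -/
def sumQ (𝔞 𝔟 : Chart H n) : Fin n ⊕ Fin n → Place k Ft := Sum.elim 𝔞.Q 𝔟.Q

/-- the chart points of `𝔞 ⊔ 𝔟`. -/
def sumPt (𝔞 𝔟 : Chart H n) : ∀ i : Fin n ⊕ Fin n, ChartPt H (sumQ 𝔞 𝔟 i)
  | Sum.inl i => 𝔞.pt i
  | Sum.inr i => 𝔟.pt i

@[simp] theorem sumPt_inl (𝔞 𝔟 : Chart H n) (i : Fin n) : sumPt 𝔞 𝔟 (Sum.inl i) = 𝔞.pt i := rfl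

@[simp] theorem sumPt_inr (𝔞 𝔟 : Chart H n) (i : Fin n) : sumPt 𝔞 𝔟 (Sum.inr i) = 𝔟.pt i := rfl

/-- `sumQ` is injective when the supports are disjoint. -/
theorem sumQ_injective {𝔞 𝔟 : Chart H n} (hab : Disjoint 𝔞.supp 𝔟.supp) :
    Function.Injective (sumQ 𝔞 𝔟) := by
  have hne : ∀ i j, 𝔞.Q i ≠ 𝔟.Q j := fun i j h =>
    Set.disjoint_left.mp hab ⟨i, rfl⟩ ⟨j, h.symm⟩
  rintro (i | i) (j | j) h
  · exact congrArg Sum.inl (𝔞.hQ h)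
  · exact absurd h (hne i j)
  · exact absurd h.symm (hne j i)
  · exact congrArg Sum.inr (𝔟.hQ h)

/-- the special places of `𝔞 ⊔ 𝔟` avoid those of a chart disjoint from both. -/
theorem sumQ_ne {𝔞 𝔟 𝔡 : Chart H n} (had : Disjoint 𝔞.supp 𝔡.supp) (hbd : Disjoint 𝔟.supp 𝔡.supp)
    (i : Fin n ⊕ Fin n) (j : Fin n) : sumQ 𝔞 𝔟 i ≠ 𝔡.Q j := by
  rcases i with i | i
  · exact fun h => Set.disjoint_left.mp had ⟨i, rfl⟩ ⟨j, h.symm⟩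
  · exact fun h => Set.disjoint_left.mp hbd ⟨i, rfl⟩ ⟨j, h.symm⟩

/-- the special places of a chart avoid those of a disjoint chart. -/
theorem chartQ_ne {𝔡 𝔠 : Chart H n} (hdc : Disjoint 𝔡.supp 𝔠.supp) (i j : Fin n) :
    𝔡.Q i ≠ 𝔠.Q j :=
  fun h => Set.disjoint_left.mp hdc ⟨i, rfl⟩ ⟨j, h.symm⟩

end Fermat.Agent.GH.Add.PicLine
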