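/-
GATE-H (S19) / node ADD, piece (R0) (helper33): reduction of `AddSpec` to families whose
coordinates separate the index set.

Frame and vocabulary: `GH/Vocab.lean` (helper32).  Contents:

* `DiscInj H`            : a point of a residue disc is determined by the value of a chart
                           parameter (the uniqueness half of the disc calculus (C); a binder here).
* `IsCoord.mem_kerRed`   : a class with coordinates lies in the kernel of reduction.
* `IsCoord.class_unique` : the class is determined by its coordinates (under `DiscInj`).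
* `AddSpecInj H n`       : `AddSpec` restricted to families `z ↦ (τ z, σ z)` that are injective.
* `addSpec_of_injective` : `DiscInj H → CoordSpec H n → AddSpecInj H n → AddSpec H n`;
  `addSpec_of_injective'` takes the unfolded contract `CoordInj H n` of `GH/Ord/Main.lean` instead.
-/
import Mathlib
import Fermat.Agent.GH.Vocab

set_option autoImplicit false

noncomputable section

open AlgebraicCurve

namespace Fermat.Agent.GH.Add.R0

open Fermat.Agent.RRh45 Fermat.Agent.GJ.S37MinDiv Fermat.Agent.GJ.J1 Fermat.Agent.GJ.S37LSpace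
  Fermat.Agent.GJ.S37ROfSurj Fermat.Agent.GH

variable {K F k Ft : Type*} [Field K] [Field F] [Algebra K F] [Field k] [Field Ft] [Algebra k Ft]
variable {R : RedData K F k Ft} {g c : ℤ}
variable [FiniteResidues K F] [HasPrincipalDivisors K F] [Nonempty (Place K F)]
variable [FiniteResidues k Ft] [HasPrincipalDivisors k Ft] [Nonempty (Place k Ft)]
variable [Infinite k]

/-- A point of a residue disc is determined by the value of a chart parameter at it. -/
def DiscInj (H : LSpaceHyp R g c) : Prop :=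
  ∀ (Q : Place k Ft) (pt : ChartPt H Q) (a : K) (P P' : Place K F),
    P ∈ disc H Q → P' ∈ disc H Q → ValueAt P pt.t a → ValueAt P' pt.t a → P = P'

variable {H : LSpaceHyp R g c} {n : ℕ}

/-- push-forward of a sum of points. -/
theorem mapDomain_sum_single (Pτ : Fin n → Place K F) :
    Finsupp.mapDomain (rOf H) (∑ i, Finsupp.single (Pτ i) (1 : ℤ))
      = ∑ i, Finsupp.single (rOf H (Pτ i)) (1 : ℤ) := by
  rw [Finsupp.mapDomain_finsetSum]
  exact Finset.sum_congr rfl fun i _ => Finsupp.mapDomain_single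

/-- the push-forward of `Σ [Pτ i] - D0` vanishes when `Pτ i` lies in the `i`-th disc. -/
theorem mapDomain_sub_D0 (𝔠 : Chart H n) (Pτ : Fin n → Place K F)
    (hP : ∀ i, Pτ i ∈ disc H (𝔠.Q i)) :
    Finsupp.mapDomain (rOf H) ((∑ i, Finsupp.single (Pτ i) (1 : ℤ)) - 𝔠.D0) = 0 := by
  have h1 : Finsupp.mapDomain (rOf H) ((∑ i, Finsupp.single (Pτ i) (1 : ℤ)) - 𝔠.D0)
      = Finsupp.mapDomain (rOf H) (∑ i, Finsupp.single (Pτ i) (1 : ℤ))
        - Finsupp.mapDomain (rOf H) 𝔠.D0 :=
    map_sub (Finsupp.mapDomain.addMonoidHom (rOf H)) _ _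
  rw [h1, Chart.D0, mapDomain_sum_single, mapDomain_sum_single, sub_eq_zero]
  refine Finset.sum_congr rfl fun i _ => ?_
  have h2 : rOf H (Pτ i) = 𝔠.Q i := hP i
  have h3 : rOf H (𝔠.pt i).P = 𝔠.Q i := (𝔠.pt i).hP
  rw [h2, h3]

/-- a class which has coordinates in a chart lies in the kernel of reduction. -/
theorem IsCoord.mem_kerRed {𝔠 : Chart H n} {ξ : Pic0 K F} {τ : Fin n → K}
    (h : IsCoord 𝔠 ξ τ) : ξ ∈ KerRed H := by
  obtain ⟨Pτ, hP, -, hdeg, hξ⟩ := h
  refine ⟨⟨_, hdeg⟩, hξ, ?_⟩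
  show Divisor.IsPrincipal
    (Finsupp.mapDomain (rOf H) ((∑ i, Finsupp.single (Pτ i) (1 : ℤ)) - 𝔠.D0))
  rw [mapDomain_sub_D0 𝔠 Pτ hP]
  exact (Divisor.principal (K := k) (F := Ft)).zero_mem

/-- the class is determined by the coordinates. -/
theorem IsCoord.class_unique (hinj : DiscInj H) {𝔠 : Chart H n} {ξ ξ' : Pic0 K F}
    {τ : Fin n → K} (h : IsCoord 𝔠 ξ τ) (h' : IsCoord 𝔠 ξ' τ) : ξ = ξ' := by
  obtain ⟨Pτ, hP, hV, hdeg, hξ⟩ := h
  obtain ⟨Pτ', hP', hV', hdeg', hξ'⟩ := h'
  have hPP : Pτ = Pτ' := funext fun i =>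
    hinj (𝔠.Q i) (𝔠.pt i) (τ i) (Pτ i) (Pτ' i) (hP i) (hP' i) (hV i) (hV' i)
  subst hPP
  rw [← hξ, ← hξ']

/-- `AddSpec` for families whose pair of coordinate vectors separates the index set. -/
def AddSpecInj (H : LSpaceHyp R g c) (n : ℕ) : Prop :=
  ∀ (𝔞 𝔟 𝔠 : Chart H n), Disjoint 𝔞.supp 𝔟.supp → Disjoint 𝔞.supp 𝔠.supp →
    Disjoint 𝔟.supp 𝔠.supp →
    ∀ (Z : Type) [Finite Z] (ξ η : Z → Pic0 K F) (τ σ μ : Z → Fin n → K),
      Function.Injective (fun z => (τ z, σ z)) →
      (∀ z, IsCoord 𝔞 (ξ z) (τ z)) → (∀ z, IsCoord 𝔟 (η z) (σ z)) →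
      (∀ z, IsCoord 𝔠 (ξ z + η z) (μ z)) →
      ∀ j, (fun z => μ z j) ∈
        Algebra.adjoin R.A ({f : Z → K | ∃ i, f = fun z => τ z i} ∪ {f | ∃ i, f = fun z => σ z i})

/-- pull-back of functions along a map of index sets, as an algebra homomorphism. -/
def pullAlg (A : ValuationSubring K) {Z Z' : Type} (π : Z → Z') : (Z' → K) →ₐ[A] (Z → K) :=
  AlgHom.pi fun z => Pi.evalAlgHom A (fun _ : Z' => K) (π z)

@[simp]
theorem pullAlg_apply (A : ValuationSubring K) {Z Z' : Type} (π : Z → Z') (f : Z' → K) (z : Z) :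
    pullAlg A π f z = f (π z) := rfl

/-- **(R0)**, contract form: `AddSpec` follows from its restriction to separating families, given
that classes are determined by their coordinates (the hypothesis `hcls` is the unfolded form of
the contract `CoordInj H n` of `GH/Ord/Main.lean`). -/
theorem addSpec_of_injective' (hcls : ∀ (𝔠 : Chart H n) (ξ ξ' : Pic0 K F) (τ : Fin n → K),
      IsCoord 𝔠 ξ τ → IsCoord 𝔠 ξ' τ → ξ = ξ')
    (hC : CoordSpec H n) (hA : AddSpecInj H n) : AddSpec H n := by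
  intro 𝔞 𝔟 𝔠 hab hac hbc Z _ ξ η τ σ μ hξ hη hμ j
  classical
  -- the quotient of `Z` by the kernel of `z ↦ (τ z, σ z)`
  set f : Z → (Fin n → K) × (Fin n → K) := fun z => (τ z, σ z) with hf
  let S : Setoid Z := Setoid.ker f
  let Z' : Type := Quotient S
  let π : Z → Z' := Quotient.mk S
  let s : Z' → Z := Quotient.out
  have hsπ : ∀ z, f (s (π z)) = f z := fun z => by
    have : s (π z) ≈ z := Quotient.exact (Quotient.out_eq (π z))
    exact this
  have hτs : ∀ z, τ (s (π z)) = τ z := fun z => congrArg Prod.fst (hsπ z)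
  have hσs : ∀ z, σ (s (π z)) = σ z := fun z => congrArg Prod.snd (hsπ z)
  have hinj' : Function.Injective (fun z' : Z' => (τ (s z'), σ (s z'))) := by
    intro a b hab'
    have h1 : s a ≈ s b := hab'
    have h2 : π (s a) = π (s b) := Quotient.sound h1
    have ha : π (s a) = a := Quotient.out_eq a
    have hb : π (s b) = b := Quotient.out_eq b
    rw [ha, hb] at h2
    exact h2
  -- the classes only depend on the coordinates
  have hξs : ∀ z, ξ (s (π z)) = ξ z := fun z =>
    hcls 𝔞 _ _ (τ z) (by rw [← hτs z]; exact hξ (s (π z))) (hξ z)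
  have hηs : ∀ z, η (s (π z)) = η z := fun z =>
    hcls 𝔟 _ _ (σ z) (by rw [← hσs z]; exact hη (s (π z))) (hη z)
  have hμs : ∀ z, μ (s (π z)) = μ z := fun z => by
    have h1 : IsCoord 𝔠 (ξ z + η z) (μ (s (π z))) := by
      rw [← hξs z, ← hηs z]; exact hμ (s (π z))
    exact (hC 𝔠 (ξ z + η z) (IsCoord.mem_kerRed (hμ z))).2.1 _ _ h1 (hμ z)
  have key := hA 𝔞 𝔟 𝔠 hab hac hbc Z' (fun z' => ξ (s z')) (fun z' => η (s z'))
    (fun z' => τ (s z')) (fun z' => σ (s z')) (fun z' => μ (s z')) hinj'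
    (fun z' => hξ (s z')) (fun z' => hη (s z')) (fun z' => hμ (s z')) j
  -- pull back along `π`
  have hmem : pullAlg R.A π (fun z' => μ (s z') j) ∈
      (Algebra.adjoin R.A ({f : Z' → K | ∃ i, f = fun z' => τ (s z') i} ∪
        {f | ∃ i, f = fun z' => σ (s z') i})).map (pullAlg R.A π) :=
    Subalgebra.mem_map.mpr ⟨_, key, rfl⟩
  rw [AlgHom.map_adjoin] at hmem
  have hfun : pullAlg R.A π (fun z' => μ (s z') j) = fun z => μ z j :=
    funext fun z => by rw [pullAlg_apply, hμs z]
  rw [hfun] at hmem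
  refine Algebra.adjoin_mono ?_ hmem
  rintro _ ⟨f', hf', rfl⟩
  rcases hf' with ⟨i, rfl⟩ | ⟨i, rfl⟩
  · exact Or.inl ⟨i, funext fun z => by rw [pullAlg_apply, hτs z]⟩
  · exact Or.inr ⟨i, funext fun z => by rw [pullAlg_apply, hσs z]⟩

/-- **(R0)**: `AddSpec` follows from its restriction to separating families (disc form of the
injectivity hypothesis). -/
theorem addSpec_of_injective (hinj : DiscInj H) (hC : CoordSpec H n) (hA : AddSpecInj H n) :
    AddSpec H n :=
  addSpec_of_injective' (fun _ _ _ _ h h' => IsCoord.class_unique hinj h h') hC hA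

end Fermat.Agent.GH.Add.R0
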