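/-
GATE-H (S19) / node ADD, file 1 (helper92): DIVISOR BOOKKEEPING on residue discs.

Frame = `GH/Vocab.lean` (`R : RedData K F k Ft`, `H : LSpaceHyp R g c`, `disc`, `Odisc`, `ValueAt`,
`ChartPt`, `Chart`).  Only input: the fibre formula `ord_red_eq_sum` of `GJ/S37/ROfSurj`.

* `valueAt_zero_iff`, `mem_iff_ord_nonneg` : bridges `ValueAt`/membership ↔ `Place.ord`.
* `disc_count` : for `f ∈ Rw` with `red f ≠ 0` and no pole on `disc Q`, the zeros of `f` on the disc
  form a finite set `S` with `∑_{P ∈ S} ord_P f = ord_Q (red f)`.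
* `exists_unique_zero` : `ord_Q (red f) = 1` ⟹ exactly one (simple) zero on the disc.
* `ord_eq_zero_of_red_unit` : `ord_Q (red f) = 0` ⟹ no zero on the disc.
* `ChartPt.ord_t` : the parameter of a chart point has its only zero on the disc at the centre.
* `ord_on_chart_disc` : `h ∈ Rw`, `red h = 1`, at most a simple pole at the centre of a chart point
  and no other pole on its disc ⟹ `div h = [P*] - [centre]` on the disc, `P*` the unique zero of `t h`.
* `divBook` : the divisor of `h ∈ L(Σ [centres in] + 𝔬.D0) ∩ Rw` with `red h = 1` and `(t_i h)(Pin i) = 0`.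
-/
import Mathlib
import Fermat.Agent.GH.Vocab
import Fermat.Agent.RR_helper67.WeakApprox

set_option autoImplicit false

noncomputable section

open AlgebraicCurve

namespace Fermat.Agent.GH.Add

open Fermat.Agent.RRh45 Fermat.Agent.GJ.S37MinDiv Fermat.Agent.GJ.J1 Fermat.Agent.GJ.S37LSpace
  Fermat.Agent.GJ.S37ROfSurj Fermat.Agent.GH

variable {K F k Ft : Type*} [Field K] [Field F] [Algebra K F] [Field k] [Field Ft] [Algebra k Ft]

/-! ### bridges between `ValuationSubring.valuation` and `Place.ord` -/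

theorem mem_iff_ord_nonneg (P : Place K F) {e : F} (he : e ≠ 0) :
    e ∈ P.toValuationSubring ↔ 0 ≤ P.ord e := by
  rw [Fermat.Agent.RRh67.mem_toValuationSubring_iff, P.adicValuation_le_one_iff]
  exact or_iff_right he

theorem valuation_lt_one_iff_ord_pos (P : Place K F) {e : F} (he : e ≠ 0) :
    P.toValuationSubring.valuation e < 1 ↔ 0 < P.ord e := by
  constructor
  · intro h
    have hmem : e ∈ P.toValuationSubring :=
      (P.toValuationSubring.valuation_le_one_iff e).mp h.le
    have h0 : 0 ≤ P.ord e := (mem_iff_ord_nonneg P he).mp hmem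
    rcases h0.lt_or_eq with h1 | h1
    · exact h1
    · exfalso
      -- `ord = 0` ⟹ unit ⟹ valuation `= 1`
      have hadic : P.adicValuation e = 1 := by
        rw [P.adicValuation_eq_exp_neg_ord he, ← h1]; simp
      have hu : IsUnit (⟨e, hmem⟩ : P.toValuationSubring) :=
        (P.adicValuation_coe_eq_one_iff ⟨e, hmem⟩).mp hadic
      have := (P.toValuationSubring.valuation_eq_one_iff ⟨e, hmem⟩).mp hu
      exact absurd h (by rw [this]; exact lt_irrefl _)
  · intro h
    have hmem : e ∈ P.toValuationSubring := (mem_iff_ord_nonneg P he).mpr h.le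
    have hle : P.toValuationSubring.valuation e ≤ 1 :=
      (P.toValuationSubring.valuation_le_one_iff e).mpr hmem
    refine lt_of_le_of_ne hle fun h1 => ?_
    have hu : IsUnit (⟨e, hmem⟩ : P.toValuationSubring) :=
      (P.toValuationSubring.valuation_eq_one_iff ⟨e, hmem⟩).mpr h1
    have hadic : P.adicValuation e = 1 := (P.adicValuation_coe_eq_one_iff ⟨e, hmem⟩).mpr hu
    rw [P.adicValuation_eq_exp_neg_ord he] at hadic
    have : -P.ord e = 0 := by
      have := WithZero.exp_injective (hadic.trans WithZero.exp_zero.symm)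
      exact this
    omega

theorem valueAt_zero_iff (P : Place K F) (e : F) : ValueAt P e 0 ↔ e = 0 ∨ 0 < P.ord e := by
  unfold ValueAt
  rw [map_zero, sub_zero]
  rcases eq_or_ne e 0 with rfl | he
  · simp
  · rw [valuation_lt_one_iff_ord_pos P he]; exact (or_iff_right he).symm


variable {R : RedData K F k Ft} {g c : ℤ}
variable [FiniteResidues K F] [HasPrincipalDivisors K F] [Nonempty (Place K F)]
variable [FiniteResidues k Ft] [HasPrincipalDivisors k Ft] [Nonempty (Place k Ft)]
variable [Infinite k]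

/-! ### counting zeros on a residue disc -/

/-- **zero count on a disc**: for `f ∈ Rw` with `red f ≠ 0` and no pole on `disc Q` there is a
finite set `S` of places of the disc, containing every zero of `f` on the disc, all of whose
members are zeros, with `∑_{P ∈ S} ord_P f = ord_Q (red f)`. -/
theorem disc_count (H : LSpaceHyp R g c) {f : F} (hf : f ∈ R.Rw) (hred : R.red ⟨f, hf⟩ ≠ 0)
    (Q : Place k Ft) (hpole : ∀ P ∈ disc H Q, 0 ≤ P.ord f) :
    ∃ S : Finset (Place K F), (∀ P ∈ S, P ∈ disc H Q ∧ 1 ≤ P.ord f) ∧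
      (∀ P ∈ disc H Q, P ∉ S → P.ord f = 0) ∧ ∑ P ∈ S, P.ord f = Q.ord (R.red ⟨f, hf⟩) := by
  classical
  have hf0 : f ≠ 0 := fun h => hred (by
    have : (⟨f, hf⟩ : R.Rw) = 0 := Subtype.ext h
    rw [this, map_zero])
  obtain ⟨Dy, hDy, -⟩ := HasPrincipalDivisors.exists_divisor (K := K) f hf0
  have hsum := ord_red_eq_sum H (y := ⟨f, hf⟩) hred hDy Q
  refine ⟨Dy.support.filter (fun P => rOf H P = Q), fun P hP => ?_, fun P hP hPS => ?_, hsum.symm⟩
  · rw [Finset.mem_filter, Finsupp.mem_support_iff, hDy P] at hP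
    have h0 := hpole P hP.2
    exact ⟨hP.2, by omega⟩
  · by_contra hne
    exact hPS (Finset.mem_filter.mpr ⟨Finsupp.mem_support_iff.mpr (by rw [hDy P]; exact hne), hP⟩)

/-- `ord_Q (red f) = 0` and no pole on the disc ⟹ no zero on the disc. -/
theorem ord_eq_zero_of_red_unit (H : LSpaceHyp R g c) {f : F} (hf : f ∈ R.Rw)
    (hred : R.red ⟨f, hf⟩ ≠ 0) {Q : Place k Ft} (hQ : Q.ord (R.red ⟨f, hf⟩) = 0)
    (hpole : ∀ P ∈ disc H Q, 0 ≤ P.ord f) : ∀ P ∈ disc H Q, P.ord f = 0 := by
  classical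
  obtain ⟨S, hS1, hS2, hS3⟩ := disc_count H hf hred Q hpole
  rw [hQ] at hS3
  intro P hP
  by_cases hPS : P ∈ S
  · exfalso
    have h1 : P.ord f ≤ ∑ P' ∈ S, P'.ord f :=
      Finset.single_le_sum (f := fun P' => P'.ord f) (fun P' hP' => by have := (hS1 P' hP').2; omega)
        hPS
    have := (hS1 P hPS).2
    omega
  · exact hS2 P hP hPS

/-- `ord_Q (red f) = 1` and no pole on the disc ⟹ exactly one zero on the disc, and it is
simple. -/
theorem exists_unique_zero (H : LSpaceHyp R g c) {f : F} (hf : f ∈ R.Rw) {Q : Place k Ft}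
    (hQ : Q.ord (R.red ⟨f, hf⟩) = 1) (hpole : ∀ P ∈ disc H Q, 0 ≤ P.ord f) :
    ∃ Ps ∈ disc H Q, Ps.ord f = 1 ∧ ∀ P ∈ disc H Q, P ≠ Ps → P.ord f = 0 := by
  classical
  have hred : R.red ⟨f, hf⟩ ≠ 0 := fun h => by rw [h, Place.ord_zero] at hQ; omega
  obtain ⟨S, hS1, hS2, hS3⟩ := disc_count H hf hred Q hpole
  rw [hQ] at hS3
  have hne : S.Nonempty := by
    by_contra h
    rw [Finset.not_nonempty_iff_eq_empty] at h
    rw [h, Finset.sum_empty] at hS3
    omega
  obtain ⟨Ps, hPs⟩ := hne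
  have hrest : ∑ P ∈ S.erase Ps, P.ord f + Ps.ord f = 1 := by
    rw [Finset.sum_erase_add _ _ hPs]; exact hS3
  have hnn : 0 ≤ ∑ P ∈ S.erase Ps, P.ord f :=
    Finset.sum_nonneg fun P hP => by
      have := (hS1 P (Finset.mem_of_mem_erase hP)).2; omega
  have h1 := (hS1 Ps hPs).2
  have hPs1 : Ps.ord f = 1 := by omega
  have hrest0 : ∑ P ∈ S.erase Ps, P.ord f = 0 := by omega
  refine ⟨Ps, (hS1 Ps hPs).1, hPs1, fun P hP hne => ?_⟩
  by_cases hPS : P ∈ S
  · exfalso
    have hPe : P ∈ S.erase Ps := Finset.mem_erase.mpr ⟨hne, hPS⟩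
    have h2 : P.ord f ≤ ∑ P' ∈ S.erase Ps, P'.ord f :=
      Finset.single_le_sum (f := fun P' => P'.ord f)
        (fun P' hP' => by have := (hS1 P' (Finset.mem_of_mem_erase hP')).2; omega) hPe
    have := (hS1 P hPS).2
    omega
  · exact hS2 P hP hPS


/-! ### chart points -/

omit [FiniteResidues K F] [HasPrincipalDivisors K F] [Nonempty (Place K F)]
  [FiniteResidues k Ft] [HasPrincipalDivisors k Ft] [Nonempty (Place k Ft)] [Infinite k] in
theorem red_ne_zero_imp_ne_zero {f : F} (hf : f ∈ R.Rw) (hred : R.red ⟨f, hf⟩ ≠ 0) : f ≠ 0 :=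
  fun h => hred (by
    have : (⟨f, hf⟩ : R.Rw) = 0 := Subtype.ext h
    rw [this, map_zero])

theorem chartPt_red_t_ne_zero {H : LSpaceHyp R g c} {Q : Place k Ft} (pt : ChartPt H Q) :
    R.red ⟨pt.t, pt.ht.1⟩ ≠ 0 := fun h => by
  have := pt.hred
  rw [h, Place.ord_zero] at this
  omega

theorem chartPt_t_ne_zero {H : LSpaceHyp R g c} {Q : Place k Ft} (pt : ChartPt H Q) :
    pt.t ≠ 0 := red_ne_zero_imp_ne_zero pt.ht.1 (chartPt_red_t_ne_zero pt)

theorem chartPt_ord_t_nonneg {H : LSpaceHyp R g c} {Q : Place k Ft} (pt : ChartPt H Q) :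
    ∀ P ∈ disc H Q, 0 ≤ P.ord pt.t := fun P hP =>
  (mem_iff_ord_nonneg P (chartPt_t_ne_zero pt)).mp (pt.ht.2 P hP)

/-- the parameter of a chart point has exactly one zero on its disc: a simple zero at the
centre. -/
theorem chartPt_ord_t {H : LSpaceHyp R g c} {Q : Place k Ft} (pt : ChartPt H Q)
    [DecidableEq (Place K F)] :
    ∀ P ∈ disc H Q, P.ord pt.t = if P = pt.P then 1 else 0 := by
  obtain ⟨Ps, hPs, hPs1, hPs0⟩ := exists_unique_zero H pt.ht.1 pt.hred (chartPt_ord_t_nonneg pt)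
  have hcentre : pt.P = Ps := by
    by_contra hne
    have h0 := hPs0 pt.P pt.hP hne
    have h1 := ((valueAt_zero_iff pt.P pt.t).mp pt.ht0).resolve_left (chartPt_t_ne_zero pt)
    omega
  intro P hP
  by_cases hPP : P = pt.P
  · rw [if_pos hPP, hPP, hcentre]; exact hPs1
  · rw [if_neg hPP]; exact hPs0 P hP (by rw [← hcentre]; exact hPP)

/-- **one disc with a chart point**: `h ∈ Rw` with `red h = 1`, at most a simple pole at the centre
and no other pole on the disc.  Then `t h` has a unique zero `Ps` on the disc and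
`div h = [Ps] - [centre]` on the disc. -/
theorem ord_on_chart_disc (H : LSpaceHyp R g c) {Q : Place k Ft} (pt : ChartPt H Q)
    [DecidableEq (Place K F)] {h : F} (hRw : h ∈ R.Rw) (hred : R.red ⟨h, hRw⟩ = 1)
    (hpole : ∀ P ∈ disc H Q, -(if P = pt.P then 1 else 0) ≤ P.ord h) :
    ∃ Ps ∈ disc H Q, ValueAt Ps (pt.t * h) 0 ∧
      (∀ P' ∈ disc H Q, ValueAt P' (pt.t * h) 0 → P' = Ps) ∧
      ∀ P ∈ disc H Q, P.ord h = (if P = Ps then 1 else 0) - (if P = pt.P then 1 else 0) := by
  have hh0 : h ≠ 0 := red_ne_zero_imp_ne_zero hRw (by rw [hred]; exact one_ne_zero)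
  have ht0 := (chartPt_t_ne_zero pt)
  have hf0 : pt.t * h ≠ 0 := mul_ne_zero ht0 hh0
  have hfRw : pt.t * h ∈ R.Rw := R.Rw.mul_mem _ _ pt.ht.1 hRw
  have hfred : R.red ⟨pt.t * h, hfRw⟩ = R.red ⟨pt.t, pt.ht.1⟩ := by
    have : (⟨pt.t * h, hfRw⟩ : R.Rw) = ⟨pt.t, pt.ht.1⟩ * ⟨h, hRw⟩ := rfl
    rw [this, map_mul, hred, mul_one]
  have hord : ∀ P : Place K F, P.ord (pt.t * h) = P.ord pt.t + P.ord h := fun P =>
    P.ord_mul ht0 hh0
  have hpf : ∀ P ∈ disc H Q, 0 ≤ P.ord (pt.t * h) := fun P hP => by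
    rw [hord P, chartPt_ord_t pt P hP]
    have := hpole P hP
    omega
  obtain ⟨Ps, hPs, hPs1, hPs0⟩ := exists_unique_zero H hfRw (by rw [hfred]; exact pt.hred) hpf
  refine ⟨Ps, hPs, (valueAt_zero_iff Ps _).mpr (Or.inr (by omega)), fun P' hP' hv => ?_,
    fun P hP => ?_⟩
  · by_contra hne
    have h0 := hPs0 P' hP' hne
    have h1 := ((valueAt_zero_iff P' _).mp hv).resolve_left hf0
    omega
  · have h1 := hord P
    rw [chartPt_ord_t pt P hP] at h1
    by_cases hPP : P = Ps
    · rw [if_pos hPP]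
      rw [hPP] at h1 ⊢
      omega
    · rw [if_neg hPP]
      have := hPs0 P hP hPP
      omega


/-! ### evaluating sums of points lying in distinct discs -/

theorem sum_single_apply_of_mem (H : LSpaceHyp R g c) {ι : Type*} [Fintype ι]
    [DecidableEq (Place K F)] {Qx : ι → Place k Ft} (hQx : Function.Injective Qx)
    {X : ι → Place K F} (hX : ∀ i, X i ∈ disc H (Qx i)) {P : Place K F} {i₀ : ι}
    (hP : P ∈ disc H (Qx i₀)) :
    (∑ i, Finsupp.single (X i) (1 : ℤ)) P = if P = X i₀ then 1 else 0 := by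
  classical
  rw [Finsupp.finsetSum_apply, Finset.sum_eq_single i₀]
  · rw [Finsupp.single_apply]
    by_cases h : P = X i₀
    · rw [if_pos h, if_pos h.symm]
    · rw [if_neg h, if_neg (fun h' => h h'.symm)]
  · intro i _ hi
    rw [Finsupp.single_apply, if_neg]
    intro hXP
    apply hi
    apply hQx
    have h1 : rOf H (X i) = Qx i := hX i
    have h2 : rOf H P = Qx i₀ := hP
    rw [← h1, ← h2, hXP]
  · intro h; exact absurd (Finset.mem_univ _) h

theorem sum_single_apply_of_notMem (H : LSpaceHyp R g c) {ι : Type*} [Fintype ι]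
    {Qx : ι → Place k Ft} {X : ι → Place K F} (hX : ∀ i, X i ∈ disc H (Qx i)) {P : Place K F}
    (hP : ∀ i, P ∉ disc H (Qx i)) :
    (∑ i, Finsupp.single (X i) (1 : ℤ)) P = 0 := by
  classical
  rw [Finsupp.finsetSum_apply]
  refine Finset.sum_eq_zero fun i _ => ?_
  rw [Finsupp.single_apply, if_neg]
  intro hXP
  exact hP i (by rw [← hXP]; exact hX i)

theorem disc_disjoint (H : LSpaceHyp R g c) {Q Q' : Place k Ft} (hQQ' : Q ≠ Q') {P : Place K F}
    (hP : P ∈ disc H Q) : P ∉ disc H Q' := fun hP' => hQQ' (by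
  have a : rOf H P = Q := hP
  have b : rOf H P = Q' := hP'
  rw [← a, ← b])

/-! ### the divisor of the interpolating function -/

/-- **DIVISOR BOOKKEEPING** (step (B) of node ADD).  Input chart points `pin i` over pairwise
distinct special places `Qin i`, an output chart `𝔬` over special places different from all
`Qin i`; `h ∈ L(Σ_i [centre of pin i] + 𝔬.D0) ∩ Rw` with `red h = 1` such that `t_i h` vanishes at a
point `Pin i` of the `i`-th input disc.  Then there are points `Pout j` of the output discs at which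
`t'_j h` vanishes, and `div h = Σ_i ([Pin i] - [centre_i]) + Σ_j ([Pout j] - [centre'_j])`. -/
theorem divBook (H : LSpaceHyp R g c) {ι : Type*} [Fintype ι] {n : ℕ}
    {Qin : ι → Place k Ft} (pin : ∀ i, ChartPt H (Qin i)) (𝔬 : Chart H n)
    (hQin : Function.Injective Qin) (hdisj : ∀ i j, Qin i ≠ 𝔬.Q j)
    {h : F} (hL : h ∈ riemannRochSpace (∑ i, Finsupp.single (pin i).P (1 : ℤ) + 𝔬.D0))
    (hRw : h ∈ R.Rw) (hred : R.red ⟨h, hRw⟩ = 1)
    {Pin : ι → Place K F} (hPin : ∀ i, Pin i ∈ disc H (Qin i))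
    (hzero : ∀ i, ValueAt (Pin i) ((pin i).t * h) 0) :
    ∃ Pout : Fin n → Place K F, (∀ j, Pout j ∈ disc H (𝔬.Q j)) ∧
      (∀ j, ValueAt (Pout j) ((𝔬.pt j).t * h) 0) ∧
      ∀ P : Place K F,
        ((∑ i, Finsupp.single (Pin i) (1 : ℤ) - ∑ i, Finsupp.single (pin i).P (1 : ℤ))
          + (∑ j, Finsupp.single (Pout j) (1 : ℤ) - 𝔬.D0)) P = P.ord h := by
  classical
  have hh0 : h ≠ 0 := red_ne_zero_imp_ne_zero hRw (by rw [hred]; exact one_ne_zero)
  have hLP : ∀ P : Place K F,
      -((∑ i, Finsupp.single (pin i).P (1 : ℤ)) P + (∑ j, Finsupp.single (𝔬.pt j).P (1 : ℤ)) P)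
        ≤ P.ord h := fun P => by
    have := (mem_riemannRochSpace_iff.mp hL P).resolve_left hh0
    rwa [Finsupp.add_apply] at this
  have hcin : ∀ i, (pin i).P ∈ disc H (Qin i) := fun i => (pin i).hP
  have hcout : ∀ j, (𝔬.pt j).P ∈ disc H (𝔬.Q j) := fun j => (𝔬.pt j).hP
  -- output discs
  have hout : ∀ j, ∃ Ps ∈ disc H (𝔬.Q j), ValueAt Ps ((𝔬.pt j).t * h) 0 ∧
      (∀ P' ∈ disc H (𝔬.Q j), ValueAt P' ((𝔬.pt j).t * h) 0 → P' = Ps) ∧
      ∀ P ∈ disc H (𝔬.Q j),
        P.ord h = (if P = Ps then 1 else 0) - (if P = (𝔬.pt j).P then 1 else 0) := fun j => by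
    refine ord_on_chart_disc H (𝔬.pt j) hRw hred fun P hP => ?_
    have h1 := hLP P
    have hnot : ∀ i, P ∉ disc H (Qin i) := fun i => disc_disjoint H (hdisj i j).symm hP
    rw [sum_single_apply_of_notMem H hcin hnot, sum_single_apply_of_mem H 𝔬.hQ hcout hP,
      zero_add] at h1
    exact h1
  choose Pout hPout hPoutv _ hPoutord using hout
  -- input discs
  have hin : ∀ i, ∀ P ∈ disc H (Qin i),
      P.ord h = (if P = Pin i then 1 else 0) - (if P = (pin i).P then 1 else 0) := fun i => by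
    obtain ⟨Ps, hPs, _, hPsu, hPsord⟩ := ord_on_chart_disc H (pin i) hRw hred fun P hP => by
      have h1 := hLP P
      have hnot : ∀ j, P ∉ disc H (𝔬.Q j) := fun j => disc_disjoint H (hdisj i j) hP
      rw [sum_single_apply_of_mem H hQin hcin hP, sum_single_apply_of_notMem H hcout hnot,
        add_zero] at h1
      exact h1
    have : Pin i = Ps := hPsu (Pin i) (hPin i) (hzero i)
    rw [this]
    exact hPsord
  refine ⟨Pout, hPout, hPoutv, fun P => ?_⟩
  rw [Finsupp.add_apply, Finsupp.sub_apply, Finsupp.sub_apply, Chart.D0]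
  by_cases h1 : ∃ i, P ∈ disc H (Qin i)
  · obtain ⟨i, hi⟩ := h1
    have hnot : ∀ j, P ∉ disc H (𝔬.Q j) := fun j => disc_disjoint H (hdisj i j) hi
    rw [sum_single_apply_of_mem H hQin hPin hi, sum_single_apply_of_mem H hQin hcin hi,
      sum_single_apply_of_notMem H hPout hnot, sum_single_apply_of_notMem H hcout hnot,
      hin i P hi]
    ring
  · push Not at h1
    by_cases h2 : ∃ j, P ∈ disc H (𝔬.Q j)
    · obtain ⟨j, hj⟩ := h2
      rw [sum_single_apply_of_notMem H hPin h1, sum_single_apply_of_notMem H hcin h1,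
        sum_single_apply_of_mem H 𝔬.hQ hPout hj, sum_single_apply_of_mem H 𝔬.hQ hcout hj,
        hPoutord j P hj]
      ring
    · push Not at h2
      rw [sum_single_apply_of_notMem H hPin h1, sum_single_apply_of_notMem H hcin h1,
        sum_single_apply_of_notMem H hPout h2, sum_single_apply_of_notMem H hcout h2]
      -- no pole on this disc, `red h = 1`
      have hpf : ∀ P' ∈ disc H (rOf H P), 0 ≤ P'.ord h := fun P' hP' => by
        have hP'P : rOf H P' = rOf H P := hP'
        have h3 := hLP P'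
        have hn1 : ∀ i, P' ∉ disc H (Qin i) := fun i hPi => h1 i (by
          have a : rOf H P' = Qin i := hPi
          show rOf H P = Qin i
          rw [← hP'P, a])
        have hn2 : ∀ j, P' ∉ disc H (𝔬.Q j) := fun j hPj => h2 j (by
          have a : rOf H P' = 𝔬.Q j := hPj
          show rOf H P = 𝔬.Q j
          rw [← hP'P, a])
        rw [sum_single_apply_of_notMem H hcin hn1, sum_single_apply_of_notMem H hcout hn2] at h3
        simpa using h3
      have := ord_eq_zero_of_red_unit H hRw (by rw [hred]; exact one_ne_zero)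
        (Q := rOf H P) (by rw [hred, Place.ord_one]) hpf P rfl
      rw [this]; ring

end Fermat.Agent.GH.Add
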