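/-
GATE-H (S19) / node ADD, file 2 (helper92): the algebra of `ValueAt` (GH/Vocab.lean).

`ValueAt P e a` ("`e(P) = a`") behaves like the graph of a ring homomorphism from the valuation
ring of the place `P` to the constant field: constants, sums, products, finite sums, uniqueness.
No hypothesis on the frame; Mathlib + Vocab only.
-/
import Mathlib
import Fermat.Agent.GH.Vocab

set_option autoImplicit false

noncomputable section

open AlgebraicCurve

namespace Fermat.Agent.GH.Add

open Fermat.Agent.GH

variable {K F : Type*} [Field K] [Field F] [Algebra K F]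

theorem valueAt_iff (P : Place K F) (e : F) (a : K) :
    ValueAt P e a ↔ P.toValuationSubring.valuation (e - algebraMap K F a) < 1 := Iff.rfl

theorem valueAt_const (P : Place K F) (a : K) : ValueAt P (algebraMap K F a) a := by
  rw [valueAt_iff, sub_self, map_zero]
  exact zero_lt_one

theorem valueAt_one (P : Place K F) : ValueAt P (1 : F) 1 := by
  simpa using valueAt_const P (1 : K)

theorem valueAt_zero' (P : Place K F) : ValueAt P (0 : F) 0 := by
  simpa using valueAt_const P (0 : K)

theorem valuation_algebraMap_le_one (P : Place K F) (a : K) :
    P.toValuationSubring.valuation (algebraMap K F a) ≤ 1 :=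
  (P.toValuationSubring.valuation_le_one_iff _).mpr (P.algebraMap_mem' a)

theorem valueAt_valuation_le_one {P : Place K F} {e : F} {a : K} (h : ValueAt P e a) :
    P.toValuationSubring.valuation e ≤ 1 := by
  have : e = (e - algebraMap K F a) + algebraMap K F a := by ring
  rw [this]
  exact (Valuation.map_add _ _ _).trans (max_le h.le (valuation_algebraMap_le_one P a))

theorem valueAt_add {P : Place K F} {e e' : F} {a a' : K} (h : ValueAt P e a)
    (h' : ValueAt P e' a') : ValueAt P (e + e') (a + a') := by
  rw [valueAt_iff] at *
  have : e + e' - algebraMap K F (a + a') = (e - algebraMap K F a) + (e' - algebraMap K F a') := by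
    rw [map_add]; ring
  rw [this]
  exact (Valuation.map_add _ _ _).trans_lt (max_lt h h')

theorem valueAt_neg {P : Place K F} {e : F} {a : K} (h : ValueAt P e a) : ValueAt P (-e) (-a) := by
  rw [valueAt_iff] at *
  have : -e - algebraMap K F (-a) = -(e - algebraMap K F a) := by rw [map_neg]; ring
  rw [this, Valuation.map_neg]
  exact h

theorem valueAt_sub {P : Place K F} {e e' : F} {a a' : K} (h : ValueAt P e a)
    (h' : ValueAt P e' a') : ValueAt P (e - e') (a - a') := by
  rw [sub_eq_add_neg, sub_eq_add_neg]; exact valueAt_add h (valueAt_neg h')

theorem valueAt_mul {P : Place K F} {e e' : F} {a a' : K} (h : ValueAt P e a)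
    (h' : ValueAt P e' a') : ValueAt P (e * e') (a * a') := by
  have he' := valueAt_valuation_le_one h'
  rw [valueAt_iff] at *
  have : e * e' - algebraMap K F (a * a')
      = (e - algebraMap K F a) * e' + algebraMap K F a * (e' - algebraMap K F a') := by
    rw [map_mul]; ring
  rw [this]
  refine (Valuation.map_add _ _ _).trans_lt (max_lt ?_ ?_)
  · rw [map_mul]
    calc P.toValuationSubring.valuation (e - algebraMap K F a) * P.toValuationSubring.valuation e'
        ≤ P.toValuationSubring.valuation (e - algebraMap K F a) * 1 := by gcongr
      _ < 1 := by rw [mul_one]; exact h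
  · rw [map_mul]
    calc P.toValuationSubring.valuation (algebraMap K F a)
          * P.toValuationSubring.valuation (e' - algebraMap K F a')
        ≤ 1 * P.toValuationSubring.valuation (e' - algebraMap K F a') := by
          gcongr; exact valuation_algebraMap_le_one P a
      _ < 1 := by rw [one_mul]; exact h'

theorem valueAt_const_mul {P : Place K F} {e : F} {a : K} (b : K) (h : ValueAt P e a) :
    ValueAt P (algebraMap K F b * e) (b * a) := valueAt_mul (valueAt_const P b) h

theorem valueAt_pow {P : Place K F} {e : F} {a : K} (h : ValueAt P e a) (m : ℕ) :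
    ValueAt P (e ^ m) (a ^ m) := by
  induction m with
  | zero => simpa using valueAt_one P
  | succ m ih => rw [pow_succ, pow_succ]; exact valueAt_mul ih h

theorem valueAt_sum {P : Place K F} {ι : Type*} (s : Finset ι) (e : ι → F) (a : ι → K)
    (h : ∀ i ∈ s, ValueAt P (e i) (a i)) : ValueAt P (∑ i ∈ s, e i) (∑ i ∈ s, a i) := by
  classical
  induction s using Finset.induction_on with
  | empty => simpa using valueAt_zero' P
  | insert i s hi ih =>
    rw [Finset.sum_insert hi, Finset.sum_insert hi]
    exact valueAt_add (h i (Finset.mem_insert_self i s))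
      (ih fun j hj => h j (Finset.mem_insert_of_mem hj))

/-- a constant with value `< 1` at a place is zero. -/
theorem eq_zero_of_valuation_algebraMap_lt_one (P : Place K F) {a : K}
    (h : P.toValuationSubring.valuation (algebraMap K F a) < 1) : a = 0 := by
  by_contra ha
  have h1 := valuation_algebraMap_le_one P a⁻¹
  have h2 : P.toValuationSubring.valuation (algebraMap K F a)
      * P.toValuationSubring.valuation (algebraMap K F a⁻¹) = 1 := by
    rw [← map_mul, ← map_mul, mul_inv_cancel₀ ha, map_one, map_one]
  have h3 : P.toValuationSubring.valuation (algebraMap K F a)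
      * P.toValuationSubring.valuation (algebraMap K F a⁻¹) < 1 := by
    calc _ ≤ P.toValuationSubring.valuation (algebraMap K F a) * 1 := by gcongr
      _ < 1 := by rw [mul_one]; exact h
  rw [h2] at h3
  exact lt_irrefl _ h3

theorem valueAt_unique {P : Place K F} {e : F} {a a' : K} (h : ValueAt P e a)
    (h' : ValueAt P e a') : a = a' := by
  have h1 : ValueAt P (e - e) (a - a') := valueAt_sub h h'
  rw [sub_self, valueAt_iff, zero_sub, Valuation.map_neg] at h1
  exact sub_eq_zero.mp (eq_zero_of_valuation_algebraMap_lt_one P h1)

end Fermat.Agent.GH.Add
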