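/-
GATE-H (S19) / node ADD, file 3 (helper92): the STEP lemma (used twice by `AddSpec`).

Data: input chart points `pin i : ChartPt H (Qin i)` (`i : ι`, any finite index type) over pairwise
distinct special places, an output chart `𝔬 : Chart H n` over special places different from all
`Qin i`; `𝔄 := Σ_i [centre of pin i] + 𝔬.D0`.  For a finite family (indexed by `Z`) of points
`Pin z i` of the input discs whose parameters `α z i` lie in an `R.A`-valued separating subalgebra
`B ⊆ (Z → K)`, there are points `Pout z j` of the output discs, with parameters `ε z j`, such that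
`ε_j ∈ B` and `Σ_i ([Pin z i] - [centre_i]) + Σ_j ([Pout z j] - [centre'_j])` is principal.

Inputs kept as binders (discharged by their owners' files):
* `DiscCalc H`  : node V (values, parameters are `𝔪`-valued, evaluated Taylor expansion);
* `HasSections` : node ADD/Sections (helper37): sections of `L(𝔄) ∩ Rw` with unit evaluation matrix;
* `harch`       : the valuation of `R.A` has rank one.
The closure device is helper99's `GH/Closure/Device.lean`.
-/
import Mathlib
import Fermat.Agent.GH.Vocab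
import Fermat.Agent.GH.Add.DivBook
import Fermat.Agent.GH.Add.ValueAlg
import Fermat.Agent.GH.Closure.Device

set_option autoImplicit false

noncomputable section

open AlgebraicCurve

namespace Fermat.Agent.GH.Add

open Fermat.Agent.RRh45 Fermat.Agent.GJ.S37MinDiv Fermat.Agent.GJ.J1 Fermat.Agent.GJ.S37LSpace
  Fermat.Agent.GJ.S37ROfSurj Fermat.Agent.GH Fermat.Agent.GH.Closure

variable {K F k Ft : Type*} [Field K] [Field F] [Algebra K F] [Field k] [Field Ft] [Algebra k Ft]
variable {R : RedData K F k Ft} {g c : ℤ}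
variable [FiniteResidues K F] [HasPrincipalDivisors K F] [Nonempty (Place K F)]
variable [FiniteResidues k Ft] [HasPrincipalDivisors k Ft] [Nonempty (Place k Ft)]
variable [Infinite k]

/-- the facts of node V (disc calculus) consumed by the STEP lemma. -/
structure DiscCalc (H : LSpaceHyp R g c) : Prop where
  /-- (I) values of disc-regular Gauss-integral functions exist and are integral. -/
  exists_value : ∀ {Q : Place k Ft} {e : F}, e ∈ Odisc H Q → ∀ P ∈ disc H Q,
    ∃ a ∈ R.A, ValueAt P e a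
  /-- (C) the parameter of a chart point takes values in the maximal ideal on its disc. -/
  param_lt_one : ∀ {Q : Place k Ft} (pt : ChartPt H Q), ∀ P ∈ disc H Q, ∀ a : K,
    ValueAt P pt.t a → R.A.valuation a < 1
  /-- (D) Taylor expansion with remainder, evaluated on the disc. -/
  taylor : ∀ {Q : Place k Ft} (pt : ChartPt H Q) {e : F}, e ∈ Odisc H Q → ∀ m : ℕ,
    ∃ γ : ℕ → K, (∀ i, γ i ∈ R.A) ∧ ∀ P ∈ disc H Q, ∀ a b : K, ValueAt P pt.t a → ValueAt P e b →
      R.A.valuation (b - ∑ i ∈ Finset.range m, γ i * a ^ i) ≤ R.A.valuation a ^ m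

/-- the output of `GH/Add/Sections.lean`: sections of `L(𝔄) ∩ Rw` whose evaluation matrix at ANY
points of the input discs has unit determinant. -/
def HasSections (H : LSpaceHyp R g c) {ι : Type*} [Fintype ι] [DecidableEq ι] {n : ℕ}
    {Qin : ι → Place k Ft} (pin : ∀ i, ChartPt H (Qin i)) (𝔬 : Chart H n) : Prop :=
  ∃ e : ι → F,
    (∀ j, e j ∈ riemannRochSpace (∑ i, Finsupp.single (pin i).P (1 : ℤ) + 𝔬.D0)) ∧
    (∀ j, e j ∈ R.Rw) ∧
    ∀ X : ι → Place K F, (∀ i, X i ∈ disc H (Qin i)) → ∀ N : Matrix ι ι K,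
      (∀ i j, ValueAt (X i) ((pin i).t * e j) (N i j)) → R.A.valuation N.det = 1

/-! ### pole bounds from membership in `L(𝔄)` -/

section PoleBounds

variable {H : LSpaceHyp R g c} {ι : Type*} [Fintype ι] {n : ℕ}
  {Qin : ι → Place k Ft} (pin : ∀ i, ChartPt H (Qin i)) (𝔬 : Chart H n)
  (hQin : Function.Injective Qin) (hdisj : ∀ i j, Qin i ≠ 𝔬.Q j)

include hQin hdisj in
theorem pole_bound_in [DecidableEq (Place K F)] {e : F}
    (hL : e ∈ riemannRochSpace (∑ i, Finsupp.single (pin i).P (1 : ℤ) + 𝔬.D0)) (he : e ≠ 0)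
    (i : ι) : ∀ P ∈ disc H (Qin i), -(if P = (pin i).P then 1 else 0) ≤ P.ord e := by
  intro P hP
  have h1 := (mem_riemannRochSpace_iff.mp hL P).resolve_left he
  have hnot : ∀ j, P ∉ disc H (𝔬.Q j) := fun j => disc_disjoint H (hdisj i j) hP
  rw [Finsupp.add_apply, Chart.D0,
    sum_single_apply_of_mem H hQin (fun i => (pin i).hP) hP,
    sum_single_apply_of_notMem H (fun j => (𝔬.pt j).hP) hnot, add_zero] at h1
  exact h1

include hdisj in
theorem pole_bound_out [DecidableEq (Place K F)] {e : F}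
    (hL : e ∈ riemannRochSpace (∑ i, Finsupp.single (pin i).P (1 : ℤ) + 𝔬.D0)) (he : e ≠ 0)
    (j : Fin n) : ∀ P ∈ disc H (𝔬.Q j), -(if P = (𝔬.pt j).P then 1 else 0) ≤ P.ord e := by
  intro P hP
  have h1 := (mem_riemannRochSpace_iff.mp hL P).resolve_left he
  have hnot : ∀ i, P ∉ disc H (Qin i) := fun i => disc_disjoint H (hdisj i j).symm hP
  rw [Finsupp.add_apply, Chart.D0,
    sum_single_apply_of_notMem H (fun i => (pin i).hP) hnot,
    sum_single_apply_of_mem H 𝔬.hQ (fun j => (𝔬.pt j).hP) hP, zero_add] at h1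
  exact h1

end PoleBounds

/-- a function of `Rw` with at most a simple pole at the centre of a chart point, and no other pole
on its disc, becomes disc-regular after multiplication by the parameter. -/
theorem mul_mem_Odisc {H : LSpaceHyp R g c} {Q : Place k Ft} (pt : ChartPt H Q)
    [DecidableEq (Place K F)] {e : F} (heRw : e ∈ R.Rw)
    (hpole : e ≠ 0 → ∀ P ∈ disc H Q, -(if P = pt.P then 1 else 0) ≤ P.ord e) :
    pt.t * e ∈ Odisc H Q := by
  refine ⟨R.Rw.mul_mem _ _ pt.ht.1 heRw, fun P hP => ?_⟩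
  rcases eq_or_ne e 0 with rfl | he
  · rw [mul_zero]; exact P.toValuationSubring.zero_mem
  · have ht0 := chartPt_t_ne_zero pt
    rw [mem_iff_ord_nonneg P (mul_ne_zero ht0 he), P.ord_mul ht0 he, chartPt_ord_t pt P hP]
    have := hpole he P hP
    omega


/-! ### small constants reduce to zero -/

omit [FiniteResidues K F] [HasPrincipalDivisors K F] [Nonempty (Place K F)]
  [FiniteResidues k Ft] [HasPrincipalDivisors k Ft] [Nonempty (Place k Ft)] [Infinite k] in
theorem algebraMap_mem_Rw {a : K} (ha : a ∈ R.A) : algebraMap K F a ∈ R.Rw := (R.mem_A_iff a).1 ha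

omit [FiniteResidues K F] [HasPrincipalDivisors K F] [Nonempty (Place K F)]
  [FiniteResidues k Ft] [HasPrincipalDivisors k Ft] [Nonempty (Place k Ft)] [Infinite k] in
theorem red_algebraMap_eq_zero {a : K} (ha : a ∈ R.A) (hlt : R.A.valuation a < 1) :
    R.red ⟨algebraMap K F a, algebraMap_mem_Rw ha⟩ = 0 := by
  rw [R.red_eq_zero_iff, IsLocalRing.mem_maximalIdeal, mem_nonunits_iff]
  rintro ⟨u, hu⟩
  rcases eq_or_ne a 0 with rfl | ha0
  · have h0 : (u : R.Rw) = 0 := by rw [hu]; exact Subtype.ext (map_zero _)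
    exact u.ne_zero h0
  · have h1 : ((u⁻¹ : (R.Rw)ˣ) : R.Rw) * (u : R.Rw) = 1 := u.inv_mul
    have h2 : (((u⁻¹ : (R.Rw)ˣ) : R.Rw) : F) * algebraMap K F a = 1 := by
      have := congrArg Subtype.val h1
      rw [hu] at this
      simpa using this
    have ha0' : algebraMap K F a ≠ 0 := fun h => ha0 ((map_eq_zero _).mp h)
    have h3 : (((u⁻¹ : (R.Rw)ˣ) : R.Rw) : F) = algebraMap K F a⁻¹ := by
      rw [map_inv₀]
      exact eq_inv_of_mul_eq_one_left h2
    have h4 : a⁻¹ ∈ R.A := (R.mem_A_iff _).2 (by rw [← h3]; exact ((u⁻¹ : (R.Rw)ˣ) : R.Rw).2)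
    have h5 : R.A.valuation a⁻¹ ≤ 1 := (R.A.valuation_le_one_iff _).mpr h4
    have h6 : R.A.valuation a * R.A.valuation a⁻¹ = 1 := by
      rw [← map_mul, mul_inv_cancel₀ ha0, map_one]
    have h7 : R.A.valuation a * R.A.valuation a⁻¹ < 1 := by
      calc _ ≤ R.A.valuation a * 1 := by gcongr
        _ < 1 := by rw [mul_one]; exact hlt
    rw [h6] at h7
    exact lt_irrefl _ h7

/-! ### the interpolating function `1 + Σ a_j e_j` -/

section Interp

variable {H : LSpaceHyp R g c} {ι : Type*} [Fintype ι] {n : ℕ}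
  {Qin : ι → Place k Ft} (pin : ∀ i, ChartPt H (Qin i)) (𝔬 : Chart H n)

theorem stepDiv_nonneg :
    (0 : Divisor K F) ≤ ∑ i, Finsupp.single (pin i).P (1 : ℤ) + 𝔬.D0 := by
  refine add_nonneg (Finset.sum_nonneg fun i _ => Finsupp.single_nonneg.mpr zero_le_one) ?_
  rw [Chart.D0]
  exact Finset.sum_nonneg fun i _ => Finsupp.single_nonneg.mpr zero_le_one

variable {e : ι → F}
  (heL : ∀ j, e j ∈ riemannRochSpace (∑ i, Finsupp.single (pin i).P (1 : ℤ) + 𝔬.D0))
  (heRw : ∀ j, e j ∈ R.Rw) {a : ι → K} (haA : ∀ j, a j ∈ R.A)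
  (halt : ∀ j, R.A.valuation (a j) < 1)

include heL in
theorem interp_mem_L :
    (1 + ∑ j, algebraMap K F (a j) * e j)
      ∈ riemannRochSpace (∑ i, Finsupp.single (pin i).P (1 : ℤ) + 𝔬.D0) := by
  refine Submodule.add_mem _ (one_mem_riemannRochSpace (stepDiv_nonneg pin 𝔬))
    (Submodule.sum_mem _ fun j _ => ?_)
  rw [← Algebra.smul_def]
  exact Submodule.smul_mem _ _ (heL j)

include heRw haA in
omit [FiniteResidues K F] [HasPrincipalDivisors K F] [Nonempty (Place K F)]
  [FiniteResidues k Ft] [HasPrincipalDivisors k Ft] [Nonempty (Place k Ft)] [Infinite k] in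
theorem interp_mem_Rw : (1 + ∑ j, algebraMap K F (a j) * e j) ∈ R.Rw :=
  R.Rw.add_mem _ _ R.Rw.one_mem
    (sum_mem fun j _ => R.Rw.mul_mem _ _ (algebraMap_mem_Rw (haA j)) (heRw j))

include halt in
omit [FiniteResidues K F] [HasPrincipalDivisors K F] [Nonempty (Place K F)]
  [FiniteResidues k Ft] [HasPrincipalDivisors k Ft] [Nonempty (Place k Ft)] [Infinite k] in
theorem interp_red :
    R.red ⟨1 + ∑ j, algebraMap K F (a j) * e j, interp_mem_Rw heRw haA⟩ = 1 := by
  have : (⟨1 + ∑ j, algebraMap K F (a j) * e j, interp_mem_Rw heRw haA⟩ : R.Rw)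
      = 1 + ∑ j, (⟨algebraMap K F (a j), algebraMap_mem_Rw (haA j)⟩ : R.Rw) * ⟨e j, heRw j⟩ := by
    apply Subtype.ext
    simp
  rw [this, map_add, map_one, map_sum]
  rw [Finset.sum_eq_zero, add_zero]
  intro j _
  rw [map_mul, red_algebraMap_eq_zero (haA j) (halt j), zero_mul]

end Interp


/-! ### valuation bookkeeping -/

section Val

variable {L : Type*} [Field L] {Γ : Type*} [LinearOrderedCommGroupWithZero Γ] (v : Valuation L Γ)

/-- truncating an approximate root relation to a lower order. -/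
theorem trunc_le {c : ℕ → L} (hc : ∀ i, v (c i) ≤ 1) {s : L} (hs : v s ≤ 1) {m m' : ℕ}
    (hmm' : m ≤ m') (h : v (∑ i ∈ Finset.range m', c i * s ^ i) ≤ v s ^ m') :
    v (∑ i ∈ Finset.range m, c i * s ^ i) ≤ v s ^ m := by
  induction m', hmm' using Nat.le_induction with
  | base => exact h
  | succ m' hmm' ih =>
    apply ih
    have h1 : ∑ i ∈ Finset.range m', c i * s ^ i
        = ∑ i ∈ Finset.range (m' + 1), c i * s ^ i - c m' * s ^ m' := by
      rw [Finset.sum_range_succ]; ring
    rw [h1]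
    refine (Valuation.map_sub _ _ _).trans (max_le ?_ ?_)
    · refine h.trans ?_
      rw [pow_succ]
      exact mul_le_of_le_one_right' hs
    · rw [map_mul, map_pow]
      exact mul_le_of_le_one_left' (hc m')

end Val


/-! ### Part A: the coefficients of the interpolating function lie in `B` -/

section PartA

open scoped Matrix

/-- linear algebra inside the ring `B`: if the evaluation matrix `N` has entries in `B` and is
pointwise of unit determinant, the solution `a` of `N a = -α` has entries in `B`, and is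
`𝔪`-valued when `α` is.  (Pure algebra: `A` any valuation subring of a field `L`.) -/
theorem exists_coeff {L : Type*} [Field L] (A : ValuationSubring L) {ι : Type*} [Fintype ι]
    [DecidableEq ι] {Z : Type*} [Finite Z] (B : Subalgebra A (Z → L))
    (hval : ∀ f ∈ B, ∀ z, f z ∈ A) {N : Z → ι → ι → L}
    (hNB : ∀ i j, (fun z => N z i j) ∈ B)
    (hdet : ∀ z, A.valuation (Matrix.of (N z)).det = 1)
    {α : Z → ι → L} (hαB : ∀ i, (fun z => α z i) ∈ B)
    (hαlt : ∀ z i, A.valuation (α z i) < 1) :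
    ∃ a : Z → ι → L, (∀ j, (fun z => a z j) ∈ B) ∧ (∀ z j, A.valuation (a z j) < 1) ∧
      ∀ z i, α z i + ∑ j, a z j * N z i j = 0 := by
  classical
  let NB : Matrix ι ι B := fun i j => ⟨fun z => N z i j, hNB i j⟩
  let αB : ι → B := fun i => ⟨fun z => α z i, hαB i⟩
  let ev : Z → (B →+* L) := fun z =>
    (Pi.evalRingHom (fun _ : Z => L) z).comp (B.val : B →+* (Z → L))
  have hev : ∀ z (b : B), ev z b = (b : Z → L) z := fun z b => rfl
  have hev_det : ∀ z, (NB.det : Z → L) z = (Matrix.of (N z)).det := fun z => by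
    rw [← hev z, RingHom.map_det]
    rfl
  have hdetu : ∀ z, A.valuation ((NB.det : Z → L) z) = 1 := fun z => by
    rw [hev_det z]; exact hdet z
  have hinvB := pinv_mem A B NB.det.2 hdetu
  have hunit : IsUnit NB.det := by
    refine IsUnit.of_mul_eq_one (⟨_, hinvB⟩ : B) (Subtype.ext (funext fun z => ?_))
    have h0 : (NB.det : Z → L) z ≠ 0 := fun h => by
      have := hdetu z
      rw [h, map_zero] at this
      exact zero_ne_one this
    show (NB.det : Z → L) z * ((NB.det : Z → L) z)⁻¹ = 1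
    exact mul_inv_cancel₀ h0
  let aB : ι → B := -(NB⁻¹ *ᵥ αB)
  have haB : NB *ᵥ aB = -αB := by
    show NB *ᵥ (-(NB⁻¹ *ᵥ αB)) = -αB
    rw [Matrix.mulVec_neg, Matrix.mulVec_mulVec, Matrix.mul_nonsing_inv _ hunit, Matrix.one_mulVec]
  refine ⟨fun z j => (aB j : Z → L) z, fun j => (aB j).2, fun z j => ?_, fun z i => ?_⟩
  · -- `𝔪`-valued
    have h1 : aB j = -∑ l, NB⁻¹ j l * αB l := by
      show (-(NB⁻¹ *ᵥ αB)) j = _
      rw [Pi.neg_apply, Matrix.mulVec, dotProduct]
    have h2 : (aB j : Z → L) z = -∑ l, ((NB⁻¹ j l : B) : Z → L) z * α z l := by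
      rw [← hev z, h1, map_neg, map_sum]
      simp only [map_mul]
      rfl
    show A.valuation ((aB j : Z → L) z) < 1
    rw [h2, Valuation.map_neg]
    refine Valuation.map_sum_lt _ one_ne_zero fun l _ => ?_
    rw [map_mul]
    have h3 : A.valuation (((NB⁻¹ j l : B) : Z → L) z) ≤ 1 :=
      (A.valuation_le_one_iff _).mpr (hval _ (NB⁻¹ j l).2 z)
    calc _ ≤ 1 * A.valuation (α z l) := by gcongr
      _ < 1 := by rw [one_mul]; exact hαlt z l
  · have h1 := congrFun haB i
    rw [Matrix.mulVec, dotProduct, Pi.neg_apply] at h1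
    have h2 := congrArg (ev z) h1
    rw [map_sum, map_neg] at h2
    simp only [map_mul] at h2
    have h3 : ∑ j, N z i j * (aB j : Z → L) z = -α z i := h2
    have : ∑ j, (aB j : Z → L) z * N z i j = ∑ j, N z i j * (aB j : Z → L) z :=
      Finset.sum_congr rfl fun j _ => mul_comm _ _
    show α z i + ∑ j, (aB j : Z → L) z * N z i j = 0
    rw [this, h3]; ring

end PartA


/-! ### Part B: the parameter of the moving zero lies in `B` -/

section PartB

variable {H : LSpaceHyp R g c}

/-- **moving zero**: `h_z = 1 + Σ_l a_l(z) e_l` with coefficient functions `a_l ∈ B`, `𝔪`-valued;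
`t e_l` disc-regular; `Pout z` a point of the disc where `t h_z` vanishes.  Then the parameter
`z ↦ t (Pout z)` lies in `B`. -/
theorem root_param_mem
    (harch : ∀ x y : K, R.A.valuation x < 1 → y ≠ 0 →
      ∃ m : ℕ, R.A.valuation x ^ m ≤ R.A.valuation y)
    (hV : DiscCalc H) {Q : Place k Ft} (pt : ChartPt H Q) {ι : Type*} [Fintype ι]
    {e : ι → F} (hψ : ∀ l, pt.t * e l ∈ Odisc H Q)
    {Z : Type*} [Finite Z] (B : Subalgebra R.A (Z → K))
    (hval : ∀ f ∈ B, ∀ z, f z ∈ R.A) (hsep : ∀ z z', z ≠ z' → ∃ f ∈ B, f z ≠ f z')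
    {a : Z → ι → K} (haB : ∀ l, (fun z => a z l) ∈ B)
    (halt : ∀ z l, R.A.valuation (a z l) < 1)
    {Pout : Z → Place K F} (hPout : ∀ z, Pout z ∈ disc H Q)
    (hzero : ∀ z, ValueAt (Pout z) (pt.t * (1 + ∑ l, algebraMap K F (a z l) * e l)) 0)
    {ε : Z → K} (hε : ∀ z, ValueAt (Pout z) pt.t (ε z)) : ε ∈ B := by
  classical
  have hεlt : ∀ z, R.A.valuation (ε z) < 1 := fun z => hV.param_lt_one pt _ (hPout z) _ (hε z)
  refine root_mem R.A B hval hsep harch hεlt fun m => ?_
  obtain ⟨m', hm', hm2⟩ : ∃ m', m ≤ m' ∧ 2 ≤ m' := ⟨max m 2, le_max_left _ _, le_max_right _ _⟩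
  choose γ hγA hγ using fun l => hV.taylor pt (hψ l) m'
  choose w hwA hw using fun z l => hV.exists_value (hψ l) (Pout z) (hPout z)
  let cB : ℕ → B := fun i =>
    (if i = 1 then 1 else 0) + ∑ l, (⟨fun z => a z l, haB l⟩ : B) * ⟨fun _ => γ l i, const_mem R.A B (hγA l i)⟩
  have hcB : ∀ i z, (cB i : Z → K) z = (if i = 1 then 1 else 0) + ∑ l, a z l * γ l i := by
    intro i z
    show ((cB i : B) : Z → K) z = _
    simp only [cB]
    by_cases hi : i = 1
    · simp [hi, Finset.sum_apply]
    · simp [hi, Finset.sum_apply]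
  have hcle : ∀ i z, R.A.valuation ((cB i : Z → K) z) ≤ 1 := fun i z =>
    (R.A.valuation_le_one_iff _).mpr (hval _ (cB i).2 z)
  have hsum_lt : ∀ z i, R.A.valuation (∑ l, a z l * γ l i) < 1 := fun z i => by
    refine Valuation.map_sum_lt _ one_ne_zero fun l _ => ?_
    rw [map_mul]
    have : R.A.valuation (γ l i) ≤ 1 := (R.A.valuation_le_one_iff _).mpr (hγA l i)
    calc _ ≤ R.A.valuation (a z l) * 1 := by gcongr
      _ < 1 := by rw [mul_one]; exact halt z l
  refine ⟨fun i => (cB i : Z → K), fun i => (cB i).2, fun z => ?_, fun z => ?_⟩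
  · show R.A.valuation ((cB 1 : Z → K) z) = 1
    rw [hcB 1 z, if_pos rfl]
    exact Valuation.map_one_add_of_lt _ (hsum_lt z 1)
  · show R.A.valuation (∑ i ∈ Finset.range m, (cB i : Z → K) z * ε z ^ i)
      ≤ R.A.valuation (ε z) ^ m
    refine trunc_le R.A.valuation (fun i => hcle i z) (hεlt z).le hm' ?_
    -- value of `t h_z` at the zero
    have h1 : pt.t * (1 + ∑ l, algebraMap K F (a z l) * e l)
        = pt.t + ∑ l, algebraMap K F (a z l) * (pt.t * e l) := by
      rw [mul_add, mul_one, Finset.mul_sum]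
      congr 1
      exact Finset.sum_congr rfl fun l _ => by ring
    have h2 : ValueAt (Pout z) (pt.t + ∑ l, algebraMap K F (a z l) * (pt.t * e l))
        (ε z + ∑ l, a z l * w z l) :=
      valueAt_add (hε z) (valueAt_sum _ _ _ fun l _ => valueAt_const_mul (a z l) (hw z l))
    have h3 : ε z + ∑ l, a z l * w z l = 0 := by
      have := hzero z
      rw [h1] at this
      exact valueAt_unique h2 this
    -- rewrite the truncated polynomial
    have h4 : ∑ i ∈ Finset.range m', (cB i : Z → K) z * ε z ^ i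
        = -∑ l, a z l * (w z l - ∑ i ∈ Finset.range m', γ l i * ε z ^ i) := by
      have h5 : ∑ i ∈ Finset.range m', (cB i : Z → K) z * ε z ^ i
          = ε z + ∑ l, a z l * ∑ i ∈ Finset.range m', γ l i * ε z ^ i := by
        simp only [hcB, add_mul, Finset.sum_add_distrib]
        congr 1
        · rw [Finset.sum_eq_single 1]
          · simp
          · intro i _ hi; rw [if_neg hi, zero_mul]
          · intro h; exact absurd (Finset.mem_range.mpr (by omega)) h
        · simp only [Finset.sum_mul, Finset.mul_sum]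
          rw [Finset.sum_comm]
          refine Finset.sum_congr rfl fun l _ => Finset.sum_congr rfl fun i _ => by ring
      rw [h5]
      have h6 : ∑ l, a z l * (w z l - ∑ i ∈ Finset.range m', γ l i * ε z ^ i)
          = ∑ l, a z l * w z l - ∑ l, a z l * ∑ i ∈ Finset.range m', γ l i * ε z ^ i := by
        rw [← Finset.sum_sub_distrib]
        exact Finset.sum_congr rfl fun l _ => by ring
      rw [h6]
      linear_combination h3
    rw [h4, Valuation.map_neg]
    refine Valuation.map_sum_le _ fun l _ => ?_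
    rw [map_mul]
    have := hγ l (Pout z) (hPout z) (ε z) (w z l) (hε z) (hw z l)
    calc _ ≤ 1 * R.A.valuation (ε z) ^ m' := by
          gcongr
          exact (halt z l).le
      _ = _ := one_mul _

end PartB


/-! ### the STEP lemma -/

/-- **STEP** (node ADD, used twice).  See the file header. -/
theorem step (H : LSpaceHyp R g c)
    (harch : ∀ x y : K, R.A.valuation x < 1 → y ≠ 0 →
      ∃ m : ℕ, R.A.valuation x ^ m ≤ R.A.valuation y)
    (hV : DiscCalc H) {ι : Type*} [Fintype ι] [DecidableEq ι] {n : ℕ}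
    {Qin : ι → Place k Ft} (pin : ∀ i, ChartPt H (Qin i)) (𝔬 : Chart H n)
    (hQin : Function.Injective Qin) (hdisj : ∀ i j, Qin i ≠ 𝔬.Q j)
    (hsec : HasSections H pin 𝔬)
    {Z : Type*} [Finite Z] (B : Subalgebra R.A (Z → K))
    (hval : ∀ f ∈ B, ∀ z, f z ∈ R.A) (hsep : ∀ z z', z ≠ z' → ∃ f ∈ B, f z ≠ f z')
    {Pin : Z → ι → Place K F} (hPin : ∀ z i, Pin z i ∈ disc H (Qin i))
    {α : Z → ι → K} (hα : ∀ z i, ValueAt (Pin z i) (pin i).t (α z i))
    (hαB : ∀ i, (fun z => α z i) ∈ B) :
    ∃ (Pout : Z → Fin n → Place K F) (ε : Z → Fin n → K),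
      (∀ z j, Pout z j ∈ disc H (𝔬.Q j)) ∧ (∀ z j, ValueAt (Pout z j) (𝔬.pt j).t (ε z j)) ∧
      (∀ j, (fun z => ε z j) ∈ B) ∧
      ∀ z, Divisor.IsPrincipal
        ((∑ i, Finsupp.single (Pin z i) (1 : ℤ) - ∑ i, Finsupp.single (pin i).P (1 : ℤ))
          + (∑ j, Finsupp.single (Pout z j) (1 : ℤ) - 𝔬.D0)) := by
  classical
  obtain ⟨e, heL, heRw, hdet⟩ := hsec
  -- disc-regularity of `t e_j`
  have hφin : ∀ i j, (pin i).t * e j ∈ Odisc H (Qin i) := fun i j =>
    mul_mem_Odisc (pin i) (heRw j) fun he => pole_bound_in pin 𝔬 hQin hdisj (heL j) he i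
  have hφout : ∀ j l, (𝔬.pt j).t * e l ∈ Odisc H (𝔬.Q j) := fun j l =>
    mul_mem_Odisc (𝔬.pt j) (heRw l) fun he => pole_bound_out pin 𝔬 hdisj (heL l) he j
  -- the evaluation matrix at the moved points
  choose N hNA hN using fun (z : Z) (i j : ι) =>
    hV.exists_value (hφin i j) (Pin z i) (hPin z i)
  have hαlt : ∀ z i, R.A.valuation (α z i) < 1 := fun z i =>
    hV.param_lt_one (pin i) _ (hPin z i) _ (hα z i)
  have hNB : ∀ i j, (fun z => N z i j) ∈ B := fun i j => by
    refine eval_mem_const R.A B hval hsep harch (hαB i) (fun z => hαlt z i) fun m => ?_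
    obtain ⟨γ, hγ, hγP⟩ := hV.taylor (pin i) (hφin i j) m
    exact ⟨γ, hγ, fun z => hγP _ (hPin z i) _ _ (hα z i) (hN z i j)⟩
  have hdetN : ∀ z, R.A.valuation (Matrix.of (N z)).det = 1 := fun z =>
    hdet (Pin z) (hPin z) _ fun i j => hN z i j
  -- the coefficients
  obtain ⟨a, haB, halt, haN⟩ := exists_coeff R.A B hval hNB hdetN hαB hαlt
  have haA : ∀ z j, a z j ∈ R.A := fun z j => hval _ (haB j) z
  -- the interpolating functions
  have hzero : ∀ z i, ValueAt (Pin z i)
      ((pin i).t * (1 + ∑ j, algebraMap K F (a z j) * e j)) 0 := fun z i => by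
    have h1 : (pin i).t * (1 + ∑ j, algebraMap K F (a z j) * e j)
        = (pin i).t + ∑ j, algebraMap K F (a z j) * ((pin i).t * e j) := by
      rw [mul_add, mul_one, Finset.mul_sum]
      congr 1
      exact Finset.sum_congr rfl fun l _ => by ring
    rw [h1, ← haN z i]
    exact valueAt_add (hα z i)
      (valueAt_sum _ _ _ fun j _ => valueAt_const_mul (a z j) (hN z i j))
  have hbook := fun z => divBook H pin 𝔬 hQin hdisj
    (interp_mem_L pin 𝔬 heL (a := a z)) (interp_mem_Rw heRw (haA z))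
    (interp_red heRw (haA z) (halt z)) (hPin z) (hzero z)
  choose Pout hPout hPoutv hord using hbook
  choose ε hεA hε using fun (z : Z) (j : Fin n) =>
    hV.exists_value (𝔬.pt j).ht (Pout z j) (hPout z j)
  refine ⟨Pout, ε, hPout, hε, fun j => ?_, fun z => ?_⟩
  · exact root_param_mem harch hV (𝔬.pt j) (hφout j) B hval hsep haB halt
      (fun z => hPout z j) (fun z => hPoutv z j) (fun z => hε z j)
  · refine ⟨1 + ∑ j, algebraMap K F (a z j) * e j, ?_, hord z⟩
    exact red_ne_zero_imp_ne_zero (interp_mem_Rw heRw (haA z))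
      (by rw [interp_red heRw (haA z) (halt z)]; exact one_ne_zero)

end Fermat.Agent.GH.Add
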