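/-
GATE-H (S19) / node ADD, file 4 (helper92): ASSEMBLY of the contract `AddSpec` of `GH/Vocab.lean`.

* `hasSections_of_values` : helper37's sections lemma (`GH/Add/Sections.lean`) in the `HasSections`
  spelling of `GH/Add/Step.lean`.
* `addSpecInj` : `AddSpecInj H n` (separating families) = STEP twice (`𝔞 ⊔ 𝔟 → 𝔡`, then `𝔡 → 𝔠`, `𝔡` a
  fourth chart from `ChartSupply` off the three supports) + the Pic0 line of helper33
  (`GH/Add/PicLine2.lean`) + uniqueness of coordinates (`CoordSpec`).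
* `addSpec` : `AddSpec H n`, through helper33's reduction `addSpec_of_injective'`.

Remaining binders: `harch` (rank one), `hV : DiscCalc H` (node V), and the contracts `ChartSupply`,
`CoordSpec`, `CoordInj` (node L, theorems on main: `GH/L/Final.lean`, `GH/L/Inj.lean`).
-/
import Mathlib
import Fermat.Agent.GH.Vocab
import Fermat.Agent.GH.Add.Step
import Fermat.Agent.GH.Add.Sections
import Fermat.Agent.GH.Add.Reduce
import Fermat.Agent.GH.Add.PicLine2

set_option autoImplicit false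

noncomputable section

open AlgebraicCurve

namespace Fermat.Agent.GH.Add

open Fermat.Agent.RRh45 Fermat.Agent.GJ.S37MinDiv Fermat.Agent.GJ.J1 Fermat.Agent.GJ.S37LSpace
  Fermat.Agent.GJ.S37ROfSurj Fermat.Agent.GH Fermat.Agent.GH.Closure

variable {K F k Ft : Type*} [Field K] [Field F] [Algebra K F] [Field k] [Field Ft] [Algebra k Ft]
variable {R : RedData K F k Ft} {g c : ℤ}
variable [FiniteResidues K F] [HasPrincipalDivisors K F] [Nonempty (Place K F)]
variable [FiniteResidues k Ft] [HasPrincipalDivisors k Ft] [Nonempty (Place k Ft)]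
variable [Infinite k]

variable {H : LSpaceHyp R g c} {n : ℕ}

/-- helper37's sections lemma in the `HasSections` spelling. -/
theorem hasSections_of_values (hn : (n : ℤ) = g) (hV : DiscCalc H) {ι : Type*} [Fintype ι]
    [DecidableEq ι] {Qin : ι → Place k Ft} (hQin : Function.Injective Qin)
    (pin : ∀ i, ChartPt H (Qin i)) (𝔬 : Chart H n) (hdisj : ∀ i j, Qin i ≠ 𝔬.Q j) :
    HasSections H pin 𝔬 := by
  obtain ⟨e, heRw, heL, hN⟩ := AddSec.exists_sections hn
    (fun Q e he P hP => hV.exists_value he P hP) hQin pin 𝔬 hdisj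
  exact ⟨e, heL, heRw, fun X hX N hXN => (hN X hX N hXN).2⟩


/-- **`AddSpec` for separating families**: STEP twice + the Pic0 line + uniqueness of
coordinates. -/
theorem addSpecInj (hn : (n : ℤ) = g)
    (harch : ∀ x y : K, R.A.valuation x < 1 → y ≠ 0 →
      ∃ m : ℕ, R.A.valuation x ^ m ≤ R.A.valuation y)
    (hV : DiscCalc H) (hS : ChartSupply H n) (hC : CoordSpec H n) : R0.AddSpecInj H n := by
  intro 𝔞 𝔟 𝔠 hab hac hbc Z _ ξ η τ σ μ hinj hξ hη hμ j
  classical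
  -- a fourth chart off the three supports
  obtain ⟨𝔡, h𝔡⟩ :=
    hS (Finset.univ.image 𝔞.Q ∪ Finset.univ.image 𝔟.Q ∪ Finset.univ.image 𝔠.Q)
  have hoff : ∀ (𝔢 : Chart H n), (∀ i l, 𝔡.Q i ≠ 𝔢.Q l) → Disjoint 𝔢.supp 𝔡.supp := by
    intro 𝔢 h
    rw [Set.disjoint_left]
    rintro _ ⟨l, rfl⟩ ⟨i, hi⟩
    exact h i l hi
  have had : Disjoint 𝔞.supp 𝔡.supp := hoff 𝔞 fun i l h => h𝔡 i (by
    rw [h]; simp)
  have hbd : Disjoint 𝔟.supp 𝔡.supp := hoff 𝔟 fun i l h => h𝔡 i (by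
    rw [h]; simp)
  have hdc : Disjoint 𝔡.supp 𝔠.supp := (hoff 𝔠 fun i l h => h𝔡 i (by
    rw [h]; simp)).symm
  -- the points of the two summands
  choose Pa hPa hPav hξc using fun z => PicLine.IsCoord.exists_chartClass (hξ z)
  choose Pb hPb hPbv hηc using fun z => PicLine.IsCoord.exists_chartClass (hη z)
  -- the coordinate algebra
  have hSval : ∀ f ∈ ({f : Z → K | ∃ i, f = fun z => τ z i} ∪ {f | ∃ i, f = fun z => σ z i}),
      ∀ z, f z ∈ R.A := by
    rintro f (⟨i, rfl⟩ | ⟨i, rfl⟩) z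
    · exact (R.A.valuation_le_one_iff _).mp
        (hV.param_lt_one (𝔞.pt i) _ (hPa z i) _ (hPav z i)).le
    · exact (R.A.valuation_le_one_iff _).mp
        (hV.param_lt_one (𝔟.pt i) _ (hPb z i) _ (hPbv z i)).le
  have hval := adjoin_val R.A _ hSval
  have hsep := hsep_adjoin R.A
    ({f : Z → K | ∃ i, f = fun z => τ z i} ∪ {f | ∃ i, f = fun z => σ z i})
    (fun z z' h => hinj (Prod.ext (funext fun i => h _ (Or.inl ⟨i, rfl⟩))
      (funext fun i => h _ (Or.inr ⟨i, rfl⟩))))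
  -- STEP 1 : `𝔞 ⊔ 𝔟 → 𝔡`
  obtain ⟨G1, ς, hG1, hς, hςB, hprin1⟩ := step H harch hV (PicLine.sumPt 𝔞 𝔟) 𝔡
    (PicLine.sumQ_injective hab) (PicLine.sumQ_ne had hbd)
    (hasSections_of_values hn hV (PicLine.sumQ_injective hab) _ 𝔡 (PicLine.sumQ_ne had hbd))
    (Algebra.adjoin R.A
      ({f : Z → K | ∃ i, f = fun z => τ z i} ∪ {f | ∃ i, f = fun z => σ z i})) hval hsep
    (Pin := fun z => Sum.elim (Pa z) (Pb z))
    (by rintro z (i | i); exacts [hPa z i, hPb z i])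
    (α := fun z => Sum.elim (τ z) (σ z))
    (by rintro z (i | i); exacts [hPav z i, hPbv z i])
    (by
      rintro (i | i)
      · exact Algebra.subset_adjoin (Or.inl ⟨i, rfl⟩)
      · exact Algebra.subset_adjoin (Or.inr ⟨i, rfl⟩))
  -- STEP 2 : `𝔡 → 𝔠`
  obtain ⟨E, ε, hE, hε, hεB, hprin2⟩ := step H harch hV 𝔡.pt 𝔠 𝔡.hQ (PicLine.chartQ_ne hdc)
    (hasSections_of_values hn hV 𝔡.hQ _ 𝔠 (PicLine.chartQ_ne hdc))
    (Algebra.adjoin R.A
      ({f : Z → K | ∃ i, f = fun z => τ z i} ∪ {f | ∃ i, f = fun z => σ z i})) hval hsep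
    hG1 hς hςB
  -- the Pic0 line
  have hco : ∀ z, IsCoord 𝔠 (ξ z + η z) (ε z) := fun z =>
    PicLine.isCoord_add_of_step_elim (𝔞 := 𝔞) (𝔟 := 𝔟) (𝔡 := 𝔡) (𝔠 := 𝔠) (Pa z) (Pb z)
      (fun i => (PicLine.sumPt 𝔞 𝔟 i).P) (G1 z) (E z) (ε z) (hξc z) (hηc z) (hE z) (hε z)
      (fun _ => rfl) (fun _ => rfl) (hprin1 z) (hprin2 z)
  -- uniqueness of coordinates
  have hμε : ∀ z, μ z = ε z := fun z =>
    (hC 𝔠 _ (R0.IsCoord.mem_kerRed (hμ z))).2.1 _ _ (hμ z) (hco z)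
  have : (fun z => μ z j) = fun z => ε z j := funext fun z => by rw [hμε z]
  rw [this]
  exact hεB j

/-- **CONTRACT `AddSpec`** of node ADD (binders: `harch`, node V as `DiscCalc`, node L contracts). -/
theorem addSpec (hn : (n : ℤ) = g)
    (harch : ∀ x y : K, R.A.valuation x < 1 → y ≠ 0 →
      ∃ m : ℕ, R.A.valuation x ^ m ≤ R.A.valuation y)
    (hV : DiscCalc H) (hS : ChartSupply H n) (hC : CoordSpec H n)
    (hcls : ∀ (𝔠 : Chart H n) (ξ ξ' : Pic0 K F) (τ : Fin n → K),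
      IsCoord 𝔠 ξ τ → IsCoord 𝔠 ξ' τ → ξ = ξ') : AddSpec H n :=
  R0.addSpec_of_injective' hcls hC (addSpecInj hn harch hV hS hC)

end Fermat.Agent.GH.Add
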