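/-
GATE-H (S19) / node ADD, FINAL PLUG (helper92): the contract `AddSpec` of `GH/Vocab.lean` over the
frame `H : LSpaceHyp R g c`, with the node-L contracts plugged (`GH/L/Final.lean`, `GH/L/Inj.lean`).

* `addSpec_of_discCalc` : `(n : ℤ) = g → harch → DiscCalc H → AddSpec H n`.

`DiscCalc H` (three facts of node V: integral values, `𝔪`-valued parameters, evaluated Taylor
expansion) is discharged in `GH/Add/DiscCalcOfV.lean` / node V files; `harch` is the rank-one
property of the valuation of `R.A` (`GH/Inst/Arch.lean` for the modular frame).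
-/
import Mathlib
import Fermat.Agent.GH.Vocab
import Fermat.Agent.GH.Add.Main
import Fermat.Agent.GH.L.Final
import Fermat.Agent.GH.L.Inj

set_option autoImplicit false

noncomputable section

open AlgebraicCurve

namespace Fermat.Agent.GH.Add

open Fermat.Agent.RRh45 Fermat.Agent.GJ.S37MinDiv Fermat.Agent.GJ.J1 Fermat.Agent.GJ.S37LSpace
  Fermat.Agent.GJ.S37ROfSurj Fermat.Agent.GH

variable {K F k Ft : Type*} [Field K] [Field F] [Algebra K F] [Field k] [Field Ft] [Algebra k Ft]
variable {R : RedData K F k Ft} {g c : ℤ}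
variable [FiniteResidues K F] [HasPrincipalDivisors K F] [Nonempty (Place K F)]
variable [FiniteResidues k Ft] [HasPrincipalDivisors k Ft] [Nonempty (Place k Ft)]
variable [Infinite k]

/-- **CONTRACT `AddSpec`** of node ADD over the frame, node L plugged. -/
theorem addSpec_of_discCalc (H : LSpaceHyp R g c) {n : ℕ} (hn : (n : ℤ) = g)
    (harch : ∀ x y : K, R.A.valuation x < 1 → y ≠ 0 →
      ∃ m : ℕ, R.A.valuation x ^ m ≤ R.A.valuation y)
    (hV : DiscCalc H) : AddSpec H n :=
  addSpec hn harch hV (L.chartSupply_main H (le_of_eq hn)) (L.coordSpec_main H hn)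
    (fun 𝔠 _ _ _ h h' => L.isCoord_class_unique H 𝔠 h h')

end Fermat.Agent.GH.Add
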