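/-
GATE-H (S19) / node ADD, file 6 (helper92): `DiscCalc H` IS A THEOREM — the three facts of node V
consumed by the STEP lemma, from helper48's `GH/Disc/Values.lean` and the fibre formula.

* `exists_value`  = `Disc.exists_valueAt` (places of degree one) + `Disc.valueAt_mem_A` (max modulus);
* `param_lt_one`  = `Disc.chartPt_valuation_lt_one`;
* `taylor`        = the DIVISION lemma (`f ∈ Odisc`, `f(centre) = 0` ⟹ `f / t ∈ Odisc`, from
  `chartPt_ord_t` of `GH/Add/DivBook.lean` and `t` being a unit of `Rw`) iterated `m` times, and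
  evaluated with the `ValueAt` algebra.

Consequence: `addSpec_main : (n : ℤ) = g → harch → AddSpec H n`, the contract of node ADD, with the
single frame binder `harch`.
-/
import Mathlib
import Fermat.Agent.GH.Vocab
import Fermat.Agent.GH.Disc.Values
import Fermat.Agent.GH.Add.Final

set_option autoImplicit false

noncomputable section

open AlgebraicCurve

namespace Fermat.Agent.GH.Add

open Fermat.Agent.RRh45 Fermat.Agent.GJ.S37MinDiv Fermat.Agent.GJ.J1 Fermat.Agent.GJ.S37LSpace
  Fermat.Agent.GJ.S37ROfSurj Fermat.Agent.GH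

variable {K F k Ft : Type*} [Field K] [Field F] [Algebra K F] [Field k] [Field Ft] [Algebra k Ft]
variable {R : RedData K F k Ft} {g c : ℤ}
variable [FiniteResidues K F] [HasPrincipalDivisors K F] [Nonempty (Place K F)]
variable [FiniteResidues k Ft] [HasPrincipalDivisors k Ft] [Nonempty (Place k Ft)]
variable [Infinite k]

variable {H : LSpaceHyp R g c} {Q : Place k Ft}

/-- (I): values of disc-regular Gauss-integral functions exist and are integral. -/
theorem exists_value_mem_A {e : F} (he : e ∈ Odisc H Q) {P : Place K F} (hP : P ∈ disc H Q) :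
    ∃ a ∈ R.A, ValueAt P e a := by
  obtain ⟨a, ha⟩ := Disc.exists_valueAt (H.degF P) (he.2 P hP)
  exact ⟨a, Disc.valueAt_mem_A he hP ha, ha⟩

/-- the parameter of a chart point is a unit of `Rw`. -/
theorem chartPt_t_inv_mem_Rw (pt : ChartPt H Q) : pt.t⁻¹ ∈ R.Rw := by
  have hnm : (⟨pt.t, pt.ht.1⟩ : R.Rw) ∉ IsLocalRing.maximalIdeal R.Rw := fun h =>
    chartPt_red_t_ne_zero pt ((R.red_eq_zero_iff _).mpr h)
  rw [IsLocalRing.mem_maximalIdeal, mem_nonunits_iff, not_not] at hnm
  obtain ⟨v, hv⟩ := hnm.exists_right_inv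
  have h2 : pt.t * (v : F) = 1 := congrArg Subtype.val hv
  rw [← eq_inv_of_mul_eq_one_right h2]
  exact v.2

/-- **DIVISION**: a disc-regular Gauss-integral function vanishing at the centre of a chart point
is divisible by the parameter in `Odisc`. -/
theorem div_t_mem_Odisc (pt : ChartPt H Q) {f : F} (hf : f ∈ Odisc H Q)
    (h0 : ValueAt pt.P f 0) : f * pt.t⁻¹ ∈ Odisc H Q := by
  classical
  refine ⟨R.Rw.mul_mem _ _ hf.1 (chartPt_t_inv_mem_Rw pt), fun P hP => ?_⟩
  rcases eq_or_ne f 0 with rfl | hf0
  · rw [zero_mul]; exact P.toValuationSubring.zero_mem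
  · have ht0 := chartPt_t_ne_zero pt
    rw [mem_iff_ord_nonneg P (mul_ne_zero hf0 (inv_ne_zero ht0)),
      P.ord_mul hf0 (inv_ne_zero ht0), Place.ord_inv, chartPt_ord_t pt P hP]
    have h1 : 0 ≤ P.ord f := (mem_iff_ord_nonneg P hf0).mp (hf.2 P hP)
    by_cases hPP : P = pt.P
    · rw [if_pos hPP]
      have h2 := ((valueAt_zero_iff pt.P f).mp h0).resolve_left hf0
      rw [hPP]
      omega
    · rw [if_neg hPP]; omega

/-- **(D) evaluated Taylor expansion with remainder.** -/
theorem taylor_eval (pt : ChartPt H Q) (m : ℕ) : ∀ {e : F}, e ∈ Odisc H Q →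
    ∃ γ : ℕ → K, (∀ i, γ i ∈ R.A) ∧ ∀ P ∈ disc H Q, ∀ a b : K, ValueAt P pt.t a → ValueAt P e b →
      R.A.valuation (b - ∑ i ∈ Finset.range m, γ i * a ^ i) ≤ R.A.valuation a ^ m := by
  induction m with
  | zero =>
    intro e he
    refine ⟨fun _ => 0, fun _ => R.A.zero_mem, fun P hP a b _ hb => ?_⟩
    rw [Finset.range_zero, Finset.sum_empty, sub_zero, pow_zero]
    exact (R.A.valuation_le_one_iff _).mpr (Disc.valueAt_mem_A he hP hb)
  | succ m ih =>
    intro e he
    -- the constant term and the quotient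
    obtain ⟨c₀, hc₀A, hc₀⟩ := exists_value_mem_A he pt.hP
    have hfO : e - algebraMap K F c₀ ∈ Odisc H Q :=
      Disc.odisc_sub he (Disc.odisc_const H Q ⟨c₀, hc₀A⟩)
    have hf0 : ValueAt pt.P (e - algebraMap K F c₀) 0 := by
      have := valueAt_sub hc₀ (valueAt_const pt.P c₀)
      rwa [sub_self] at this
    have he' : (e - algebraMap K F c₀) * pt.t⁻¹ ∈ Odisc H Q := div_t_mem_Odisc pt hfO hf0
    obtain ⟨γ', hγ'A, hγ'⟩ := ih he'
    refine ⟨fun i => Nat.casesOn i c₀ γ', fun i => ?_, fun P hP a b ha hb => ?_⟩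
    · cases i with
      | zero => exact hc₀A
      | succ i => exact hγ'A i
    · obtain ⟨b', _, hb'⟩ := exists_value_mem_A he' hP
      have ht0 := chartPt_t_ne_zero pt
      -- `e = c₀ + t e'`
      have hdecomp : e = algebraMap K F c₀ + pt.t * ((e - algebraMap K F c₀) * pt.t⁻¹) := by
        field_simp
        ring
      have hb2 : ValueAt P e (c₀ + a * b') := by
        rw [hdecomp]
        exact valueAt_add (valueAt_const P c₀) (valueAt_mul ha hb')
      have hbeq : b = c₀ + a * b' := valueAt_unique hb hb2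
      have hsum : ∑ i ∈ Finset.range (m + 1), (Nat.casesOn i c₀ γ' : K) * a ^ i
          = c₀ + a * ∑ i ∈ Finset.range m, γ' i * a ^ i := by
        rw [Finset.sum_range_succ', Finset.mul_sum]
        simp only [pow_zero, mul_one]
        rw [add_comm]
        congr 1
        exact Finset.sum_congr rfl fun i _ => by rw [pow_succ]; ring
      rw [hsum, hbeq]
      have : c₀ + a * b' - (c₀ + a * ∑ i ∈ Finset.range m, γ' i * a ^ i)
          = a * (b' - ∑ i ∈ Finset.range m, γ' i * a ^ i) := by ring
      rw [this, map_mul, pow_succ, mul_comm]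
      gcongr
      exact hγ' P hP a b' ha hb'

/-- **`DiscCalc H` is a theorem.** -/
theorem discCalc_main (H : LSpaceHyp R g c) : DiscCalc H where
  exists_value := fun he _ hP => exists_value_mem_A he hP
  param_lt_one := fun pt _ hP _ ha => Disc.chartPt_valuation_lt_one pt hP ha
  taylor := fun pt _ he m => taylor_eval pt m he

/-- **CONTRACT `AddSpec`** of node ADD over the frame; the only binder left is the rank-one
property `harch` of the valuation of `R.A`. -/
theorem addSpec_main (H : LSpaceHyp R g c) {n : ℕ} (hn : (n : ℤ) = g)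
    (harch : ∀ x y : K, R.A.valuation x < 1 → y ≠ 0 →
      ∃ m : ℕ, R.A.valuation x ^ m ≤ R.A.valuation y) : AddSpec H n :=
  addSpec_of_discCalc H hn harch (discCalc_main H)

end Fermat.Agent.GH.Add
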