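/-
GATE-H (S19) / node ADD, second seat (helper37): HEDGE for the disc calculus consumed by STEP.

From ONE binder `ValuesSpec H` (fact (I): values of disc-regular Gauss-integral functions exist
and are integral) and the fibre formula we derive the three facts STEP consumes
(`DiscCalc` of helper92 4665):

* `exists_value_of`  : (I) itself, in the `∃ a ∈ R.A` spelling;
* `param_lt_one_of`  : the values of a chart parameter on its disc lie in the maximal ideal;
* `exists_taylor_ring` : `e = Σ_{i<m} γ_i t^i + t^m r`, `γ_i ∈ R.A`, `r ∈ Odisc`;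
* `taylor_of`        : the evaluated Taylor expansion with remainder `≤ |a|^m`.
-/
import Mathlib
import Fermat.Agent.GH.Add.Sections
import Fermat.Agent.GH.Add.DivBook

set_option autoImplicit false

noncomputable section

open AlgebraicCurve

namespace Fermat.Agent.GH.AddSec

open Fermat.Agent.RRh45 Fermat.Agent.GJ.S37MinDiv Fermat.Agent.GJ.J1 Fermat.Agent.GJ.S37LSpace
  Fermat.Agent.GJ.S37ROfSurj Fermat.Agent.S24 Fermat.Agent.GH.Add

variable {K F k Ft : Type*} [Field K] [Field F] [Algebra K F] [Field k] [Field Ft] [Algebra k Ft]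

theorem ValueAt.one (P : Place K F) : ValueAt P (1 : F) (1 : K) := by
  have := valueAt_algebraMap P (1 : K)
  rwa [map_one] at this

theorem ValueAt.pow (P : Place K F) {e : F} {a : K} (h : ValueAt P e a) (i : ℕ) :
    ValueAt P (e ^ i) (a ^ i) := by
  induction i with
  | zero => simpa using ValueAt.one P
  | succ i ih => rw [pow_succ, pow_succ]; exact ValueAt.mul P ih h

theorem ValueAt.sub (P : Place K F) {e e' : F} {a a' : K} (h : ValueAt P e a)
    (h' : ValueAt P e' a') : ValueAt P (e - e') (a - a') := by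
  have h1 : ValueAt P (algebraMap K F (-1) * e') (-1 * a') := ValueAt.smul P (-1) h'
  have h2 := ValueAt.add P h h1
  have e1 : e + algebraMap K F (-1) * e' = e - e' := by rw [map_neg, map_one]; ring
  have e2 : a + -1 * a' = a - a' := by ring
  rwa [e1, e2] at h2

variable {R : RedData K F k Ft} {g c : ℤ}
variable [FiniteResidues K F] [HasPrincipalDivisors K F] [Nonempty (Place K F)]
variable [FiniteResidues k Ft] [HasPrincipalDivisors k Ft] [Nonempty (Place k Ft)]
variable [Infinite k]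
variable {H : LSpaceHyp R g c}

/-! ### the ring `Odisc` -/

theorem const_mem_Odisc (Q : Place k Ft) {a : K} (ha : a ∈ R.A) :
    algebraMap K F a ∈ Odisc H Q :=
  ⟨(R.mem_A_iff a).1 ha, fun P _ => P.algebraMap_mem' a⟩

theorem sub_mem_Odisc {Q : Place k Ft} {e e' : F} (he : e ∈ Odisc H Q) (he' : e' ∈ Odisc H Q) :
    e - e' ∈ Odisc H Q :=
  ⟨sub_mem he.1 he'.1, fun P hP => sub_mem (he.2 P hP) (he'.2 P hP)⟩

theorem add_mem_Odisc {Q : Place k Ft} {e e' : F} (he : e ∈ Odisc H Q) (he' : e' ∈ Odisc H Q) :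
    e + e' ∈ Odisc H Q :=
  ⟨add_mem he.1 he'.1, fun P hP => add_mem (he.2 P hP) (he'.2 P hP)⟩

theorem mul_mem_Odisc' {Q : Place k Ft} {e e' : F} (he : e ∈ Odisc H Q) (he' : e' ∈ Odisc H Q) :
    e * e' ∈ Odisc H Q :=
  ⟨mul_mem he.1 he'.1, fun P hP => mul_mem (he.2 P hP) (he'.2 P hP)⟩

/-- the inverse of a chart parameter is Gauss-integral. -/
theorem chartPt_t_inv_mem_Rw {Q : Place k Ft} (pt : ChartPt H Q) : pt.t⁻¹ ∈ R.Rw := by
  have hnm : (⟨pt.t, pt.ht.1⟩ : R.Rw) ∉ IsLocalRing.maximalIdeal R.Rw := fun h =>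
    chartPt_red_t_ne_zero pt ((R.red_eq_zero_iff _).mpr h)
  have hu : IsUnit (⟨pt.t, pt.ht.1⟩ : R.Rw) := IsLocalRing.notMem_maximalIdeal.mp hnm
  obtain ⟨u, hu⟩ := hu
  have h1 : ((↑u⁻¹ : R.Rw) : F) = pt.t⁻¹ := by
    have h2 : ((u : R.Rw) : F) * ((↑u⁻¹ : R.Rw) : F) = 1 := by
      rw [← Subring.coe_mul, Units.mul_inv]; rfl
    rw [hu] at h2
    exact eq_inv_of_mul_eq_one_right h2
  rw [← h1]
  exact (↑u⁻¹ : R.Rw).2

/-- **division by the parameter** in `Odisc`. -/
theorem div_mem_Odisc {Q : Place k Ft} (pt : ChartPt H Q) {e : F} (he : e ∈ Odisc H Q)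
    (h0 : ValueAt pt.P e 0) : e * pt.t⁻¹ ∈ Odisc H Q := by
  classical
  refine ⟨mul_mem he.1 (chartPt_t_inv_mem_Rw pt), fun P hP => ?_⟩
  rcases eq_or_ne e 0 with rfl | he0
  · rw [zero_mul]; exact P.toValuationSubring.zero_mem
  have ht0 := chartPt_t_ne_zero pt
  have hne : e * pt.t⁻¹ ≠ 0 := mul_ne_zero he0 (inv_ne_zero ht0)
  rw [← PlaceB.ord_nonneg_iff _ hne, Place.ord_mul _ he0 (inv_ne_zero ht0), Place.ord_inv,
    chartPt_ord_t pt P hP]
  have h1 : 0 ≤ P.ord e := (PlaceB.ord_nonneg_iff _ he0).mpr (he.2 P hP)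
  by_cases hPP : P = pt.P
  · rw [if_pos hPP]
    subst hPP
    have := ((valueAt_zero_iff _).mp h0).resolve_left he0
    omega
  · rw [if_neg hPP]; omega

/-! ### Taylor expansion with remainder -/

/-- **(D), ring form**: `e = Σ_{i<m} γ_i t^i + t^m r` with `γ_i ∈ R.A` and `r ∈ Odisc`. -/
theorem exists_taylor_ring (hI : ValuesSpec H) {Q : Place k Ft} (pt : ChartPt H Q) {e : F}
    (he : e ∈ Odisc H Q) (m : ℕ) :
    ∃ γ : ℕ → K, (∀ i, γ i ∈ R.A) ∧ ∃ r ∈ Odisc H Q,
      e = ∑ i ∈ Finset.range m, algebraMap K F (γ i) * pt.t ^ i + pt.t ^ m * r := by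
  induction m with
  | zero => exact ⟨fun _ => 0, fun _ => R.A.zero_mem, e, he, by simp⟩
  | succ m ih =>
    obtain ⟨γ, hγ, r, hr, hex⟩ := ih
    obtain ⟨cc, hcA, hcv⟩ := hI Q r hr pt.P pt.hP
    have ht0 := chartPt_t_ne_zero pt
    have h0 : ValueAt pt.P (r - algebraMap K F cc) 0 := (valueAt_iff _).mp hcv
    have hr' := div_mem_Odisc pt (sub_mem_Odisc hr (const_mem_Odisc Q hcA)) h0
    refine ⟨fun i => if i = m then cc else γ i, fun i => ?_, _, hr', ?_⟩
    · by_cases hi : i = m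
      · simp only [hi, if_true]; exact hcA
      · simp only [hi, if_false]; exact hγ i
    · rw [Finset.sum_range_succ]
      simp only [if_true]
      have h1 : ∑ i ∈ Finset.range m, algebraMap K F (if i = m then cc else γ i) * pt.t ^ i
          = ∑ i ∈ Finset.range m, algebraMap K F (γ i) * pt.t ^ i := by
        refine Finset.sum_congr rfl fun i hi => ?_
        rw [if_neg (Finset.mem_range.mp hi).ne]
      rw [h1]
      conv_lhs => rw [hex]
      have h2 : pt.t ^ (m + 1) * ((r - algebraMap K F cc) * pt.t⁻¹)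
          = pt.t ^ m * (r - algebraMap K F cc) := by
        rw [pow_succ]; field_simp
      rw [h2]; ring

/-- **(D), evaluated**: the Taylor polynomial approximates the value to order `|a|^m`, uniformly
on the disc. -/
theorem taylor_of (hI : ValuesSpec H) {Q : Place k Ft} (pt : ChartPt H Q) {e : F}
    (he : e ∈ Odisc H Q) (m : ℕ) :
    ∃ γ : ℕ → K, (∀ i, γ i ∈ R.A) ∧ ∀ P ∈ disc H Q, ∀ a b : K, ValueAt P pt.t a → ValueAt P e b →
      R.A.valuation (b - ∑ i ∈ Finset.range m, γ i * a ^ i) ≤ R.A.valuation a ^ m := by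
  obtain ⟨γ, hγ, r, hr, hex⟩ := exists_taylor_ring hI pt he m
  refine ⟨γ, hγ, fun P hP a b ha hb => ?_⟩
  obtain ⟨ρ, hρA, hρv⟩ := hI Q r hr P hP
  have h1 : ValueAt P e (∑ i ∈ Finset.range m, γ i * a ^ i + a ^ m * ρ) := by
    rw [hex]
    refine ValueAt.add P (ValueAt.sum P _ fun i _ => ?_) (ValueAt.mul P (ValueAt.pow P ha m) hρv)
    exact ValueAt.smul P (γ i) (ValueAt.pow P ha i)
  have h2 := ValueAt.unique P hb h1
  rw [h2, add_sub_cancel_left, map_mul, map_pow]
  calc R.A.valuation a ^ m * R.A.valuation ρ ≤ R.A.valuation a ^ m * 1 :=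
        mul_le_mul_right ((R.A.valuation_le_one_iff ρ).mpr hρA) _
    _ = _ := mul_one _

/-! ### (I) and (I0) in the spelling of STEP -/

theorem exists_value_of (hI : ValuesSpec H) {Q : Place k Ft} {e : F} (he : e ∈ Odisc H Q) :
    ∀ P ∈ disc H Q, ∃ a ∈ R.A, ValueAt P e a := fun P hP => hI Q e he P hP

/-- the values of a chart parameter on its disc lie in the maximal ideal of `R.A`. -/
theorem param_lt_one_of (hI : ValuesSpec H) {Q : Place k Ft} (pt : ChartPt H Q) :
    ∀ P ∈ disc H Q, ∀ a : K, ValueAt P pt.t a → R.A.valuation a < 1 := by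
  intro P hP a ha
  obtain ⟨a', ha'A, ha'v⟩ := hI Q pt.t pt.ht P hP
  have haA : a ∈ R.A := by rw [ValueAt.unique P ha ha'v]; exact ha'A
  by_contra hlt
  have hres : R.res ⟨a, haA⟩ ≠ 0 := fun h => hlt ((res_eq_zero_iff (R := R) ⟨a, haA⟩).mp h)
  set tt : R.Rw := ⟨pt.t, pt.ht.1⟩ with htt
  set aa : R.Rw := ⟨algebraMap K F a, (R.mem_A_iff _).1 haA⟩ with haa
  have hreda : R.red aa = algebraMap k Ft (R.res ⟨a, haA⟩) := R.red_algebraMap ⟨a, haA⟩
  have hw0 : algebraMap k Ft (R.res ⟨a, haA⟩) ≠ 0 := by simpa using hres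
  have hordw : Q.ord (algebraMap k Ft (R.res ⟨a, haA⟩)) = 0 := PlaceB.ord_algebraMap Q hres
  have hordu : Q.ord (R.red tt) = 1 := pt.hred
  have hu0 : R.red tt ≠ 0 := chartPt_red_t_ne_zero pt
  have hredf : R.red (tt - aa) = R.red tt - algebraMap k Ft (R.res ⟨a, haA⟩) := by
    rw [map_sub, hreda]
  have hredf0 : R.red (tt - aa) ≠ 0 := by
    rw [hredf]
    intro h
    rw [sub_eq_zero] at h
    rw [h, hordw] at hordu
    exact zero_ne_one hordu
  have hf0 : ((tt - aa : R.Rw) : F) ≠ 0 := fun h =>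
    hredf0 (by rw [show tt - aa = 0 from Subtype.ext h, map_zero])
  have hcoe : ((tt - aa : R.Rw) : F) = pt.t - algebraMap K F a := rfl
  have hpos : 0 < Q.ord (R.red (tt - aa)) := by
    refine ord_red_pos_of_zero H hredf0 (fun P' hP' => ?_) hP ?_
    · rw [PlaceB.ord_nonneg_iff _ hf0, hcoe]
      exact sub_mem (pt.ht.2 P' hP') (P'.algebraMap_mem' _)
    · rw [← val_lt_one_iff_ord_pos _ hf0, hcoe]
      exact ha
  -- but `red (t - a) = red t - res a` is a unit at `Q`
  have hsum : algebraMap k Ft (R.res ⟨a, haA⟩) = R.red tt + -R.red (tt - aa) := by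
    rw [hredf]; ring
  have hge := PlaceB.ord_add_ge Q hu0 (neg_ne_zero.mpr hredf0) (by rw [← hsum]; exact hw0)
  rw [← hsum, hordw, hordu, PlaceB.ord_neg] at hge
  have : (1 : ℤ) ≤ 0 ∨ Q.ord (R.red (tt - aa)) ≤ 0 := by
    rcases min_le_iff.mp hge with h | h
    · exact Or.inl h
    · exact Or.inr h
  rcases this with h | h <;> omega

/-! ### (I): values exist and are integral (binder-free `ValuesSpec`) -/

omit [FiniteResidues K F] [HasPrincipalDivisors K F] [Nonempty (Place K F)]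
  [FiniteResidues k Ft] [HasPrincipalDivisors k Ft] [Nonempty (Place k Ft)] [Infinite k] in
/-- at a place of degree one every regular function has a value in `K`. -/
theorem exists_valueAt_of_deg_one (P : Place K F) (hdeg : P.deg = 1) {e : F}
    (he : e ∈ P.toValuationSubring) : ∃ a : K, ValueAt P e a := by
  have h1 : Module.finrank K P.ResidueField = 1 := hdeg
  obtain ⟨a, ha⟩ := (finrank_eq_one_iff_of_nonzero' (1 : P.ResidueField) one_ne_zero).mp h1
    (IsLocalRing.residue P.toValuationSubring ⟨e, he⟩)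
  refine ⟨a, ?_⟩
  have h2 : IsLocalRing.residue P.toValuationSubring
      (⟨e, he⟩ - algebraMap K P.toValuationSubring a) = 0 := by
    rw [map_sub, ← ha, Algebra.smul_def, mul_one, sub_eq_zero]
    rfl
  have h3 := (IsLocalRing.residue_eq_zero_iff _).mp h2
  exact (ValuationSubring.valuation_lt_one_iff _ _).mp h3

/-- **(I)**: the values of disc-regular Gauss-integral functions are integral. -/
theorem valuesSpec (H : LSpaceHyp R g c) : ValuesSpec H := by
  intro Q e he P hP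
  obtain ⟨a, ha⟩ := exists_valueAt_of_deg_one P (H.degF P) (he.2 P hP)
  refine ⟨a, ?_, ha⟩
  by_contra haA
  -- `|a| > 1`: the function `f = a⁻¹ e - 1` reduces to `-1` but vanishes at `P`
  have ha0 : a ≠ 0 := fun h => haA (by rw [h]; exact R.A.zero_mem)
  have hinvA : a⁻¹ ∈ R.A := (R.A.mem_or_inv_mem a).resolve_left haA
  have hinv_lt : R.A.valuation a⁻¹ < 1 := by
    rw [val_lt_one_iff_inv_notMem _ (inv_ne_zero ha0), inv_inv]; exact haA
  set ai : R.Rw := ⟨algebraMap K F a⁻¹, (R.mem_A_iff _).1 hinvA⟩ with hai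
  have hredai : R.red ai = 0 := by
    have := R.red_algebraMap ⟨a⁻¹, hinvA⟩
    rw [hai, this, (res_eq_zero_iff (R := R) ⟨a⁻¹, hinvA⟩).mpr hinv_lt, map_zero]
  set ee : R.Rw := ⟨e, he.1⟩ with hee
  have hredf : R.red (ai * ee - 1) = -1 := by
    rw [map_sub, map_mul, hredai, zero_mul, map_one, zero_sub]
  have hredf0 : R.red (ai * ee - 1) ≠ 0 := by rw [hredf]; exact neg_ne_zero.mpr one_ne_zero
  have hf0 : ((ai * ee - 1 : R.Rw) : F) ≠ 0 := fun h =>
    hredf0 (by rw [show ai * ee - 1 = 0 from Subtype.ext h, map_zero])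
  have hcoe : ((ai * ee - 1 : R.Rw) : F) = algebraMap K F a⁻¹ * e - 1 := rfl
  have hpos : 0 < Q.ord (R.red (ai * ee - 1)) := by
    refine ord_red_pos_of_zero H hredf0 (fun P' hP' => ?_) hP ?_
    · rw [PlaceB.ord_nonneg_iff _ hf0, hcoe]
      exact sub_mem (mul_mem (P'.algebraMap_mem' _) (he.2 P' hP')) (one_mem _)
    · rw [← val_lt_one_iff_ord_pos _ hf0, hcoe]
      have h1 : ValueAt P (algebraMap K F a⁻¹ * e) (a⁻¹ * a) := ValueAt.smul P a⁻¹ ha
      rw [inv_mul_cancel₀ ha0] at h1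
      have h2 := (valueAt_iff P).mp h1
      rw [map_one] at h2
      unfold ValueAt at h2
      rwa [map_zero, sub_zero] at h2
  rw [hredf, PlaceB.ord_neg, Place.ord_one] at hpos
  exact lt_irrefl _ hpos

/-! ### binder-free forms -/

/-- (I), binder-free. -/
theorem exists_value {Q : Place k Ft} {e : F} (he : e ∈ Odisc H Q) :
    ∀ P ∈ disc H Q, ∃ a ∈ R.A, ValueAt P e a := exists_value_of (valuesSpec H) he

/-- (I0)/(C), binder-free. -/
theorem param_lt_one {Q : Place k Ft} (pt : ChartPt H Q) :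
    ∀ P ∈ disc H Q, ∀ a : K, ValueAt P pt.t a → R.A.valuation a < 1 :=
  param_lt_one_of (valuesSpec H) pt

/-- (D) evaluated, binder-free. -/
theorem taylor {Q : Place k Ft} (pt : ChartPt H Q) {e : F} (he : e ∈ Odisc H Q) (m : ℕ) :
    ∃ γ : ℕ → K, (∀ i, γ i ∈ R.A) ∧ ∀ P ∈ disc H Q, ∀ a b : K, ValueAt P pt.t a → ValueAt P e b →
      R.A.valuation (b - ∑ i ∈ Finset.range m, γ i * a ^ i) ≤ R.A.valuation a ^ m :=
  taylor_of (valuesSpec H) pt he m

/-- the sections lemma, binder-free. -/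
theorem exists_sections' {n : ℕ} {ι : Type*} [Fintype ι] [DecidableEq ι] (hn : (n : ℤ) = g)
    {Q : ι → Place k Ft} (hQ : Function.Injective Q)
    (pt : ∀ i, ChartPt H (Q i)) (𝔤 : Chart H n) (hdisj : ∀ i j, Q i ≠ 𝔤.Q j) :
    ∃ e : ι → F, (∀ j, e j ∈ R.Rw) ∧ (∀ j, e j ∈ riemannRochSpace (poleDiv pt 𝔤)) ∧
      ∀ X : ι → Place K F, (∀ i, X i ∈ disc H (Q i)) → ∀ N : Matrix ι ι K,
        (∀ i j, ValueAt (X i) ((pt i).t * e j) (N i j)) →
          (∀ i j, N i j ∈ R.A) ∧ R.A.valuation N.det = 1 :=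
  exists_sections hn (valuesSpec H) hQ pt 𝔤 hdisj

end Fermat.Agent.GH.AddSec
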