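/-
GATE-H (S19) / node ADD, the export consumed by `GH/Top/Plug.lean` (helper92):
`addNode : ℓ.Prime → Top.AddNode ℓ` — the contract `AddSpec` in the concrete frame `redDataBar N A`,
from `addSpec_main` (`GH/Add/DiscCalcOfV.lean`) and `Inst.harch_bar` (helper85).
-/
import Mathlib
import Fermat.Agent.GH.Top.Plug
import Fermat.Agent.GH.Add.DiscCalcOfV

set_option autoImplicit false

noncomputable section

open AlgebraicCurve

namespace Fermat.Agent.GH.Add

open Fermat.Agent.GH Fermat.Agent.GH.Inst Fermat.Agent.GH.Top

/-- **node ADD** in the concrete frame: the hole `AddNode ℓ` of `Top.s19_of_nodes`. -/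
theorem addNode {ℓ : ℕ} (hℓ : ℓ.Prime) : AddNode ℓ := by
  intro N _ A hA _ _ _ g c H n hn
  have := finiteResidues_bar N
  have := finiteResidues_fresBar N A
  have := hasPrincipalDivisors_fresBar N A
  have := nonempty_place_fresBar N A
  have := infinite_kA A
  have := hasPrincipalDivisors_bar N
  have := nonempty_place_bar N
  exact addSpec_main H hn (harch_bar N A hℓ hA)

end Fermat.Agent.GH.Add
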