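/-
GATE-H (S19) / node ADD, second seat (helper37): PLUGS for `GH/Add/Step.lean`.

* `discCalc H : Add.DiscCalc H`           — binder-free, from `GH/Add/DiscCalcOfValues.lean`;
* `hasSections … : Add.HasSections H pin 𝔬` — binder-free, from `GH/Add/Sections.lean`;
* `step' `                                — `Add.step` with both binders discharged.
-/
import Mathlib
import Fermat.Agent.GH.Add.DiscCalcOfValues
import Fermat.Agent.GH.Add.Step

set_option autoImplicit false

noncomputable section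

open AlgebraicCurve

namespace Fermat.Agent.GH.AddSec

open Fermat.Agent.RRh45 Fermat.Agent.GJ.S37MinDiv Fermat.Agent.GJ.J1 Fermat.Agent.GJ.S37LSpace
  Fermat.Agent.GJ.S37ROfSurj Fermat.Agent.GH.Add

variable {K F k Ft : Type*} [Field K] [Field F] [Algebra K F] [Field k] [Field Ft] [Algebra k Ft]
variable {R : RedData K F k Ft} {g c : ℤ}
variable [FiniteResidues K F] [HasPrincipalDivisors K F] [Nonempty (Place K F)]
variable [FiniteResidues k Ft] [HasPrincipalDivisors k Ft] [Nonempty (Place k Ft)]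
variable [Infinite k]

/-- the disc calculus consumed by STEP, binder-free. -/
theorem discCalc (H : LSpaceHyp R g c) : DiscCalc H where
  exists_value := fun he => exists_value he
  param_lt_one := fun pt => param_lt_one pt
  taylor := fun pt _ he m => taylor pt he m

/-- the sections consumed by STEP, binder-free. -/
theorem hasSections {H : LSpaceHyp R g c} {n : ℕ} (hn : (n : ℤ) = g) {ι : Type*} [Fintype ι]
    [DecidableEq ι] {Qin : ι → Place k Ft} (hQin : Function.Injective Qin)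
    (pin : ∀ i, ChartPt H (Qin i)) (𝔬 : Chart H n) (hdisj : ∀ i j, Qin i ≠ 𝔬.Q j) :
    HasSections H pin 𝔬 := by
  obtain ⟨e, h1, h2, h3⟩ := exists_sections' hn hQin pin 𝔬 hdisj
  exact ⟨e, h2, h1, fun X hX N hN => (h3 X hX N hN).2⟩

/-- **STEP with the disc calculus and the sections discharged.** -/
theorem step' (H : LSpaceHyp R g c) {n : ℕ} (hn : (n : ℤ) = g)
    (harch : ∀ x y : K, R.A.valuation x < 1 → y ≠ 0 →
      ∃ m : ℕ, R.A.valuation x ^ m ≤ R.A.valuation y)
    {ι : Type*} [Fintype ι] [DecidableEq ι]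
    {Qin : ι → Place k Ft} (pin : ∀ i, ChartPt H (Qin i)) (𝔬 : Chart H n)
    (hQin : Function.Injective Qin) (hdisj : ∀ i j, Qin i ≠ 𝔬.Q j)
    {Z : Type*} [Finite Z] (B : Subalgebra R.A (Z → K))
    (hval : ∀ f ∈ B, ∀ z, f z ∈ R.A) (hsep : ∀ z z', z ≠ z' → ∃ f ∈ B, f z ≠ f z')
    {Pin : Z → ι → Place K F} (hPin : ∀ z i, Pin z i ∈ disc H (Qin i))
    {α : Z → ι → K} (hα : ∀ z i, ValueAt (Pin z i) (pin i).t (α z i))
    (hαB : ∀ i, (fun z => α z i) ∈ B) :
    ∃ (Pout : Z → Fin n → Place K F) (ε : Z → Fin n → K),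
      (∀ z j, Pout z j ∈ disc H (𝔬.Q j)) ∧ (∀ z j, ValueAt (Pout z j) (𝔬.pt j).t (ε z j)) ∧
      (∀ j, (fun z => ε z j) ∈ B) ∧
      ∀ z, Divisor.IsPrincipal
        ((∑ i, Finsupp.single (Pin z i) (1 : ℤ) - ∑ i, Finsupp.single (pin i).P (1 : ℤ))
          + (∑ j, Finsupp.single (Pout z j) (1 : ℤ) - 𝔬.D0)) :=
  step H harch (discCalc H) pin 𝔬 hQin hdisj (hasSections hn hQin pin 𝔬 hdisj) B hval hsep hPin hα hαB

end Fermat.Agent.GH.AddSec
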